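import Mathlib
import Fermat.Agent.S24.Hurwitz
import Fermat.Agent.S18.A.DiffLower
import Fermat.Agent.S37.Diff.OrdBounds
import Fermat.Agent.S17.RR.X0
import Fermat.Agent.S17.B.Frame

/-!
# PROJECT H (S17), bridge `canDiv ↔ ordDifferential` in characteristic zero

`K` algebraically closed of characteristic zero, `F/K(x)` a function field with separating
element `x`.  All ramification is tame, hence the divisor of the differential `dx`, computed
place by place through `ordDifferential`, IS the divisor `canDiv = -2 (x)_∞ + Diff(F/K(x))` of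
`S37/Diff/OrdBounds`:

* `ordDifferential_D_eq_canDiv`       : `ord_P (dx) = canDiv P`;
* `ordDifferential_smul_D_eq`         : `ord_P (c • dx) = ord_P c + canDiv P` (`c ≠ 0`);
* `ordDifferential_inv_smul_D_eq_sub` : if `E P = ord_P a + (A - canDiv) P` then
  `ord_P (a⁻¹ • dx) = A P - E P` (the shape of the data of B.8: `A = δ∞`);
* `ordDifferential_inv_smul_dj`       : the same for `X₀(N)`, literally in the shape of
  `Pos/FixedData.exists_EE`: `E P = ord_P a + (δ∞ - KX0 N) P` gives
  `ord_P (a⁻¹ • dj) = dOO N δ P - E P`.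
-/

set_option autoImplicit false

noncomputable section

namespace Fermat.Agent.S17.Adj.CanDivBridge

open AlgebraicCurve IntermediateField KaehlerDifferential
open Fermat.Agent.S24.FF Fermat.Agent.S24.Ord Fermat.Agent.S24.Hurwitz
open Fermat.Agent.S18.A Fermat.Agent.S18.A.Defs
open Fermat.Agent.S37.Diff.OrdBounds

universe u w

variable {K : Type w} {F : Type u} [Field K] [Field F] [Algebra K F]
variable [IsAlgClosed K] [CharZero K] {x : F}

/-- **`div(dx) = canDiv`** in characteristic zero -/
theorem ordDifferential_D_eq_canDiv (hx : IsFF K x) (hsep : Algebra.IsSeparable K⟮x⟯ F)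
    (P : Place K F) : P.ordDifferential (D K F x) = canDiv hx hsep P := by
  rw [canDiv_apply]
  obtain ⟨a, h | h⟩ := mem_poles_or_mem_zeros hx P
  · -- a pole of `x`
    have hlt := (mem_poles hx P).mp h
    have hneg := (ord_neg_iff P hx.ne_zero).mpr hlt
    have htame : ((P.ord x : ℤ) : K) ≠ 0 := Int.cast_ne_zero.mpr hneg.ne
    rw [ordDifferential_D_of_mem_poles hx h, DiffLower.diffExp_eq_of_tame_pole hx hsep hlt htame,
      max_eq_left (by omega)]
    ring
  · -- a zero of `x - a`
    have hlt := (mem_zeros hx a P).mp h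
    have hne : x - algebraMap K F a ≠ 0 := sub_ne_zero.mpr (hx.ne_algebraMap a)
    have hpos := (ord_pos_iff P hne).mpr hlt
    have htame : ((P.ord (x - algebraMap K F a) : ℤ) : K) ≠ 0 := Int.cast_ne_zero.mpr hpos.ne'
    have hle : P.adicValuation x ≤ 1 := DiffLower.adicValuation_le_one_of_sub_lt_one hlt
    have h0 : 0 ≤ P.ord x := (ord_nonneg_iff P hx.ne_zero).mpr hle
    rw [ordDifferential_D_of_mem_zeros hx h, DiffLower.diffExp_eq_of_tame_zero hx hsep a hlt htame,
      max_eq_right (by omega)]
    ring

/-- `ord_P (c • dx) = ord_P c + canDiv P` -/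
theorem ordDifferential_smul_D_eq (hx : IsFF K x) (hsep : Algebra.IsSeparable K⟮x⟯ F)
    {c : F} (hc : c ≠ 0) (P : Place K F) :
    P.ordDifferential (c • D K F x) = P.ord c + canDiv hx hsep P := by
  rw [Fermat.Agent.S24.LocalDiff.ordDifferential_smul' P (surjective_residue hx P)
    (isAlgebraic_of_isFF hx) hc (D_ne_zero hx), ordDifferential_D_eq_canDiv hx hsep]

/-- the data of B.8: if `E = div a + (A - canDiv)` at `P`, then `ord_P (a⁻¹ • dx) = A P - E P` -/
theorem ordDifferential_inv_smul_D_eq_sub (hx : IsFF K x) (hsep : Algebra.IsSeparable K⟮x⟯ F)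
    {a : F} (ha : a ≠ 0) (A : Divisor K F) (P : Place K F) {e : ℤ}
    (he : e = P.ord a + (A P - canDiv hx hsep P)) :
    P.ordDifferential (a⁻¹ • D K F x) = A P - e := by
  rw [ordDifferential_smul_D_eq hx hsep (inv_ne_zero ha), Place.ord_inv, he]
  ring

/-! ### `X₀(N)` -/

section X0

open ModularCurve Fermat.Agent.S17.Dict.QStructure Fermat.Agent.S17.B.Frame
open Fermat.Agent.S17.RR.X0
open Fermat.Agent.S24.DegreeAlg (jgen)

local notation "Kb" => AlgebraicClosure ℚ

variable (N : ℕ) [NeZero N]

/-- `div(dj) = KX0 N`, place by place -/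
theorem ordDifferential_dj (P : Place Kb (modularFunctionFieldBar N)) :
    P.ordDifferential (D Kb (modularFunctionFieldBar N) (jgen N)) = KX0 N P :=
  ordDifferential_D_eq_canDiv (Instances.isFF_jgen N) (Instances.isSeparable_jgen N) P

set_option synthInstance.maxHeartbeats 400000 in
/-- **the differential of B.8**: for the section `a` of `δ∞ - KX0` with zero divisor `E`
(`Pos/FixedData.exists_EE`), the rational differential `a⁻¹ • dj` has divisor `δ∞ - E`. -/
theorem ordDifferential_inv_smul_dj (δ : ℕ) {a : modularFunctionFieldBar N} (ha : a ≠ 0)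
    {E : Divisor Kb (modularFunctionFieldBar N)}
    (hE : ∀ P, E P = P.ord a + ((Finsupp.single (oo N) (δ : ℤ) :
      Divisor Kb (modularFunctionFieldBar N)) - KX0 N) P)
    (P : Place Kb (modularFunctionFieldBar N)) :
    P.ordDifferential (a⁻¹ • D Kb (modularFunctionFieldBar N) (jgen N)) = dOO N δ P - E P := by
  refine ordDifferential_inv_smul_D_eq_sub (Instances.isFF_jgen N) (Instances.isSeparable_jgen N)
    ha (dOO N δ) P ?_
  rw [hE P]
  rfl

end X0

end Fermat.Agent.S17.Adj.CanDivBridge
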