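import Mathlib
import Fermat.Agent.S24.Hurwitz
import Fermat.Agent.S17.Model.Lift
import Fermat.Agent.S17.Model.BPF

/-!
# PROJECT H (S17), seam S-8: Wronskians, values of differentials and the one-sided adjunction core

Frame: `K` algebraically closed of characteristic zero, `F/K` a function field
(`hx : S24.FF.IsFF K x`), differentials = `Ω[F⁄K]` (the object behind `Place.ordDifferential`),
`f : Fin (n+1) → F` coordinate functions (helper27's `Model/Lift`).

* `coeffD s ω`            : the function `ω / ds` (`0` if `ω` is not a multiple of `ds`);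
* `ord_coeffD`            : `ord_v (ω / ds) = ord_v ω` for a local parameter `s` at `v`;
* `ev_coeffD_D`           : `(dg / ds)(v) = ((g - g(v)) / s)(v)` for `g` regular at `v`;
* `wr f j k`              : the Wronskian differential `f_j df_k - f_k df_j`;
* `ev_coeffD_wr`          : the values of the Wronskians are the coordinates of `tauvec`;
* `exists_bound_differential` : (BPF) for a section of `K + 2 D0` against the Wronskians;
* `adjunction_core`       : `‖x̃P‖² |G(P)| |(η/ds_P)(P)| ≤ C ‖τP‖` when `G η` is holomorphic.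
-/

set_option autoImplicit false

namespace Fermat.Agent.S17.Adj.Wronskian

open AlgebraicCurve KaehlerDifferential Fermat.Agent.S24.FF Fermat.Agent.S24.Ord
  Fermat.Agent.S18.C.PlaceEval Fermat.Agent.S17.Model.Lift

universe u w

variable {K : Type w} {F : Type u} [Field K] [Field F] [Algebra K F]

/-! ### the quotient of a differential by `ds` -/

open Classical in
/-- the function `ω / ds`: the `c` with `ω = c • ds` (`0` if there is none) -/
noncomputable def coeffD (s : F) (ω : Ω[F⁄K]) : F :=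
  if h : ∃ c : F, ω = c • D K F s then h.choose else 0

/-- `ds` is a basis of the differentials -/
def IsParam (K : Type w) {F : Type u} [Field K] [Field F] [Algebra K F] (s : F) : Prop :=
  D K F s ≠ 0 ∧ ∀ ω : Ω[F⁄K], ∃ c : F, ω = c • D K F s

theorem coeffD_spec {s : F} (hs : IsParam K s) (ω : Ω[F⁄K]) : coeffD s ω • D K F s = ω := by
  unfold coeffD
  rw [dif_pos (hs.2 ω)]
  exact (hs.2 ω).choose_spec.symm

theorem coeffD_unique {s : F} (hs : IsParam K s) {ω : Ω[F⁄K]} {c : F} (h : ω = c • D K F s) :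
    coeffD s ω = c := by
  have key : (coeffD s ω - c) • D K F s = 0 := by
    rw [sub_smul, coeffD_spec hs, ← h, sub_self]
  rcases smul_eq_zero.mp key with h0 | h0
  · exact sub_eq_zero.mp h0
  · exact absurd h0 hs.1

theorem coeffD_zero {s : F} (hs : IsParam K s) : coeffD s (0 : Ω[F⁄K]) = 0 :=
  coeffD_unique hs (zero_smul F _).symm

theorem coeffD_self {s : F} (hs : IsParam K s) : coeffD s (D K F s) = 1 :=
  coeffD_unique hs (one_smul F _).symm

theorem coeffD_smul {s : F} (hs : IsParam K s) (c : F) (ω : Ω[F⁄K]) :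
    coeffD s (c • ω) = c * coeffD s ω :=
  coeffD_unique hs (by rw [mul_smul, coeffD_spec hs])

theorem coeffD_add {s : F} (hs : IsParam K s) (ω ω' : Ω[F⁄K]) :
    coeffD s (ω + ω') = coeffD s ω + coeffD s ω' :=
  coeffD_unique hs (by rw [add_smul, coeffD_spec hs, coeffD_spec hs])

theorem coeffD_sub {s : F} (hs : IsParam K s) (ω ω' : Ω[F⁄K]) :
    coeffD s (ω - ω') = coeffD s ω - coeffD s ω' :=
  coeffD_unique hs (by rw [sub_smul, coeffD_spec hs, coeffD_spec hs])

theorem coeffD_eq_zero_iff {s : F} (hs : IsParam K s) (ω : Ω[F⁄K]) : coeffD s ω = 0 ↔ ω = 0 := by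
  constructor
  · intro h
    rw [← coeffD_spec hs ω, h, zero_smul]
  · rintro rfl
    exact coeffD_zero hs

/-- change of the parameter: `ω / ds' = (ω / ds) (ds / ds')` -/
theorem coeffD_change {s s' : F} (hs : IsParam K s) (hs' : IsParam K s') (ω : Ω[F⁄K]) :
    coeffD s' ω = coeffD s ω * coeffD s' (D K F s) := by
  conv_lhs => rw [← coeffD_spec hs ω]
  rw [coeffD_smul hs']

section Place

variable [IsAlgClosed K] [CharZero K] {x : F}

/-- a function of nonzero order at some place is a parameter for the differentials -/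
theorem isParam_of_ord_ne_zero (hx : IsFF K x) (v : Place K F) {s : F} (hs : v.ord s ≠ 0) :
    IsParam K s := by
  have hres := Fermat.Agent.S24.Hurwitz.surjective_residue hx v
  have htr := Fermat.Agent.S24.Hurwitz.isAlgebraic_of_isFF hx
  have := Fermat.Agent.S24.LocalDiff.dCoordGenerates v hres htr
  have := Fermat.Agent.S24.LocalDiff.nontrivial_kaehler v hres
  have hc := (Fermat.Agent.S24.LocalDiff.differentialCoeff_D v hres htr hs).1
  refine ⟨Fermat.Agent.S24.LocalDiff.D_ne_zero_of_ord_ne_zero v hres htr hs, fun ω => ?_⟩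
  have e : v.differentialCoeff (D K F s) • v.dCoord = D K F s :=
    v.differentialCoeff_smul_dCoord _
  set c0 : F := v.differentialCoeff (D K F s) with hc0
  clear_value c0
  refine ⟨v.differentialCoeff ω / c0, ?_⟩
  rw [← e, smul_smul, div_mul_cancel₀ _ hc, v.differentialCoeff_smul_dCoord]

theorem isParam_of_ord_eq_one (hx : IsFF K x) (v : Place K F) {s : F} (hs : v.ord s = 1) :
    IsParam K s :=
  isParam_of_ord_ne_zero hx v (by rw [hs]; exact one_ne_zero)

theorem isParam_of_isFF (hx : IsFF K x) : IsParam K x :=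
  ⟨Fermat.Agent.S24.Hurwitz.D_ne_zero hx, fun ω =>
    Fermat.Agent.S24.LocalDiff.exists_eq_smul_D
      (by have := hx.finite; exact Algebra.IsAlgebraic.of_finite _ _) ω⟩

/-- **(W1)** the order of `ω / ds` at `v` is the order of the differential `ω` -/
theorem ord_coeffD (hx : IsFF K x) (v : Place K F) {s : F} (hs : v.ord s = 1) {ω : Ω[F⁄K]}
    (hω : ω ≠ 0) : v.ord (coeffD s ω) = v.ordDifferential ω := by
  have hres := Fermat.Agent.S24.Hurwitz.surjective_residue hx v
  have htr := Fermat.Agent.S24.Hurwitz.isAlgebraic_of_isFF hx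
  have hp := isParam_of_ord_eq_one hx v hs
  have hc : coeffD s ω ≠ 0 := fun h => hω ((coeffD_eq_zero_iff hp ω).mp h)
  have h1 := Fermat.Agent.S24.LocalDiff.ordDifferential_smul' v hres htr hc hp.1
  rw [coeffD_spec hp] at h1
  have h2 := Fermat.Agent.S24.LocalDiff.ordDifferential_D v hres htr
    (f := s) (by rw [hs]; exact one_ne_zero)
  rw [h1, h2, hs]
  ring

/-- `dq / ds` is regular at `v` when `q` is -/
theorem coeffD_D_mem (hx : IsFF K x) (v : Place K F) {s : F} (hs : v.ord s = 1) {q : F}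
    (hq : q ∈ v.toValuationSubring) : coeffD s (D K F q) ∈ v.toValuationSubring := by
  have hres := Fermat.Agent.S24.Hurwitz.surjective_residue hx v
  have htr := Fermat.Agent.S24.Hurwitz.isAlgebraic_of_isFF hx
  have hp := isParam_of_ord_eq_one hx v hs
  rcases eq_or_ne (D K F q) 0 with h0 | h0
  · rw [h0, coeffD_zero hp]
    exact zero_mem _
  apply mem_of_ord_nonneg
  rw [ord_coeffD hx v hs h0]
  set c : K := ev hx v q with hc
  have hne : q - algebraMap K F c ≠ 0 := by
    intro h
    apply h0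
    rw [sub_eq_zero.mp h, Derivation.map_algebraMap]
  have hpos : 0 < v.ord (q - algebraMap K F c) := by
    rw [ord_pos_iff v hne]
    exact (ev_eq_iff hx v hq c).mp rfl
  rw [Fermat.Agent.S24.LocalDiff.ordDifferential_D_sub v hres htr q c hpos.ne']
  omega

/-- **(W2)** `(dg / ds)(v) = ((g - g(v)) / s)(v)`: the value of the derivative is the first
Hasse coefficient -/
theorem ev_coeffD_D (hx : IsFF K x) (v : Place K F) {s : F} (hs : v.ord s = 1) {g : F}
    (hg : g ∈ v.toValuationSubring) :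
    ev hx v (coeffD s (D K F g)) = ev hx v ((g - algebraMap K F (ev hx v g)) / s) := by
  have hp := isParam_of_ord_eq_one hx v hs
  have hs0 : s ≠ 0 := ne_zero_of_ord_eq_one v hs
  set c : K := ev hx v g with hc
  set q : F := (g - algebraMap K F c) / s with hq
  have hgq : g = algebraMap K F c + s * q := by
    rw [hq, mul_div_cancel₀ _ hs0]
    ring
  have hqmem : q ∈ v.toValuationSubring := by
    rcases eq_or_ne (g - algebraMap K F c) 0 with h0 | h0
    · rw [hq, h0, zero_div]
      exact zero_mem _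
    · apply mem_of_ord_nonneg
      rw [hq, div_eq_mul_inv, v.ord_mul h0 (inv_ne_zero hs0), v.ord_inv, hs]
      have : 0 < v.ord (g - algebraMap K F c) := by
        rw [ord_pos_iff v h0]
        exact (ev_eq_iff hx v hg c).mp rfl
      omega
  have hD : D K F g = (q + s * coeffD s (D K F q)) • D K F s := by
    conv_lhs => rw [hgq]
    rw [map_add, Derivation.map_algebraMap, zero_add, Derivation.leibniz, add_smul, mul_smul,
      coeffD_spec hp, add_comm]
  rw [coeffD_unique hp hD]
  have hrmem := coeffD_D_mem hx v hs hqmem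
  have hsmem : s ∈ v.toValuationSubring := mem_of_ord_nonneg v (by rw [hs]; exact zero_le_one)
  rw [ev_add hx v hqmem (mul_mem hsmem hrmem), ev_mul hx v hsmem hrmem,
    ev_eq_zero_of_ord_pos hx v (g := s) (by rw [hs]; exact zero_lt_one), zero_mul, add_zero]

/-- division by a function with nonzero value -/
theorem ev_div (hx : IsFF K x) (v : Place K F) {g u : F} (hg : g ∈ v.toValuationSubring)
    (hu : u ∈ v.toValuationSubring) (hne : ev hx v u ≠ 0) :
    g / u ∈ v.toValuationSubring ∧ ev hx v (g / u) = ev hx v g / ev hx v u := by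
  rw [ev_of_mem hx v hu] at hne
  obtain ⟨h, h'⟩ := Fermat.Agent.S17.Model.BPF.exists_evalAt_div hx v hg hu hne
  refine ⟨h, ?_⟩
  rw [ev_of_mem hx v h, ev_of_mem hx v hg, ev_of_mem hx v hu, h']

omit [CharZero K] in
/-- a regular function with nonzero value has order zero -/
theorem ord_eq_zero_of_ev_ne_zero (hx : IsFF K x) (v : Place K F) {g : F}
    (hg : g ∈ v.toValuationSubring) (hne : ev hx v g ≠ 0) : g ≠ 0 ∧ v.ord g = 0 := by
  have hg0 : g ≠ 0 := by
    rintro rfl
    exact hne (ev_zero hx v)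
  refine ⟨hg0, ?_⟩
  have h0 : 0 ≤ v.ord g := (mem_iff_ord_nonneg v hg0).mp hg
  by_contra hcon
  have hpos : 0 < v.ord g := lt_of_le_of_ne h0 (Ne.symm hcon)
  exact hne ((ev_eq_zero_iff_ord_pos hx v hg0 h0).mpr hpos)

/-! ### Wronskians -/

section Wr

variable {n : ℕ} (f : Fin (n + 1) → F)

/-- the Wronskian differential `f_j df_k - f_k df_j` -/
noncomputable def wr (K : Type w) {F : Type u} [Field K] [Field F] [Algebra K F] {n : ℕ}
    (f : Fin (n + 1) → F) (j k : Fin (n + 1)) : Ω[F⁄K] :=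
  f j • D K F (f k) - f k • D K F (f j)

omit [IsAlgClosed K] [CharZero K] in
theorem wr_aux (c a b : F) :
    (c * a) • D K F (c * b) - (c * b) • D K F (c * a) = (c ^ 2) • (a • D K F b - b • D K F a) := by
  rw [Derivation.leibniz, Derivation.leibniz]
  module

variable {f}

omit [IsAlgClosed K] [CharZero K] in
/-- homogeneity of the Wronskian -/
theorem wr_eq_sq_smul {i : Fin (n + 1)} (hi : f i ≠ 0) (j k : Fin (n + 1)) :
    wr K f j k = (f i ^ 2) •
      ((f j / f i) • D K F (f k / f i) - (f k / f i) • D K F (f j / f i)) := by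
  rw [← wr_aux, mul_div_cancel₀ _ hi, mul_div_cancel₀ _ hi]
  rfl

/-- **(W3)** the values of the Wronskians (divided by `ds` and by the square of an admissible
coordinate) are the coordinates of the tangent vector -/
theorem ev_coeffD_wr (hx : IsFF K x) (v : Place K F) (hf : ∀ j, f j ≠ 0) {i : Fin (n + 1)}
    (hi : Admissible f v i) {s : F} (hs : v.ord s = 1) (j k : Fin (n + 1)) :
    coeffD s (wr K f j k) / f i ^ 2 ∈ v.toValuationSubring ∧
      ev hx v (coeffD s (wr K f j k) / f i ^ 2) = tauvec hx v f i s (j, k) := by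
  have hp := isParam_of_ord_eq_one hx v hs
  have hgj : f j / f i ∈ v.toValuationSubring := div_mem v hf hi j
  have hgk : f k / f i ∈ v.toValuationSubring := div_mem v hf hi k
  have hdj := coeffD_D_mem hx v hs hgj
  have hdk := coeffD_D_mem hx v hs hgk
  have h2 : coeffD s (wr K f j k) / f i ^ 2
      = (f j / f i) * coeffD s (D K F (f k / f i)) - (f k / f i) * coeffD s (D K F (f j / f i)) := by
    rw [wr_eq_sq_smul (hf i), coeffD_smul hp, coeffD_sub hp, coeffD_smul hp, coeffD_smul hp,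
      mul_div_cancel_left₀ _ (pow_ne_zero 2 (hf i))]
  rw [h2]
  refine ⟨sub_mem (mul_mem hgj hdk) (mul_mem hgk hdj), ?_⟩
  rw [ev_sub hx v (mul_mem hgj hdk) (mul_mem hgk hdj), ev_mul hx v hgj hdk, ev_mul hx v hgk hdj,
    ev_coeffD_D hx v hs hgk, ev_coeffD_D hx v hs hgj]
  rfl

end Wr

/-! ### (BPF) for differentials against the Wronskians -/

section Bound

variable {n : ℕ} {f : Fin (n + 1) → F}

omit [IsAlgClosed K] [CharZero K] in
theorem exists_ord_eq_one (v : Place K F) : ∃ s : F, v.ord s = 1 := by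
  obtain ⟨π, hπ⟩ := IsDiscreteValuationRing.exists_irreducible v.toValuationSubring
  exact ⟨(π : F), v.ord_coe_irreducible hπ⟩

/-- the local dictionary between the global normalisation (`/ dx`) and the local one
(`/ ds`, `/ f i ^ 2`) -/
theorem exists_local_factor (hx : IsFF K x) (v : Place K F) (hf : ∀ j, f j ≠ 0)
    (i : Fin (n + 1)) {s : F} (hs : v.ord s = 1) :
    ∃ κ : F, κ ≠ 0 ∧ ∀ ω : Ω[F⁄K], coeffD x ω = coeffD s ω / f i ^ 2 * κ := by
  have hp := isParam_of_ord_eq_one hx v hs
  have hpx := isParam_of_isFF hx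
  refine ⟨f i ^ 2 * coeffD x (D K F s), mul_ne_zero (pow_ne_zero 2 (hf i)) ?_, fun ω => ?_⟩
  · intro h0
    exact hp.1 ((coeffD_eq_zero_iff hpx _).mp h0)
  · rw [coeffD_change hp hpx ω]
    field_simp [hf i]

/-- **(W4)** the base-point-free growth lemma for a section `σ` of `K + 2 D0` against the
Wronskians: `|(σ / ds)(v)| ≤ C ‖τ_v‖` at every place, in every admissible normalisation. -/
theorem exists_bound_differential (hx : IsFF K x) (hf : ∀ j, f j ≠ 0)
    (hE2 : ∀ (v : Place K F) (i : Fin (n + 1)) (s : F), Admissible f v i → v.ord s = 1 →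
      tauvec hx v f i s ≠ 0)
    (σ : Ω[F⁄K]) (hσ : ∀ v : Place K F, 2 * nuAt f v ≤ v.ordDifferential σ) :
    ∃ (S : Finset K) (N : ℕ), ∀ (abv : AbsoluteValue K ℝ) (A : ℝ), 1 ≤ A →
      (∀ c ∈ S, abv c ≤ A) →
      ∀ (v : Place K F) (i : Fin (n + 1)) (s : F), Admissible f v i → v.ord s = 1 →
        ∃ p : Fin (n + 1) × Fin (n + 1),
          abv (ev hx v (coeffD s σ / f i ^ 2)) ≤ N * A * abv (tauvec hx v f i s p) ∧
          (IsNonarchimedean abv →
            abv (ev hx v (coeffD s σ / f i ^ 2)) ≤ A * abv (tauvec hx v f i s p)) := by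
  classical
  rcases eq_or_ne σ 0 with rfl | hσ0
  · refine ⟨∅, 0, fun abv A hA _ v i s _ hs => ⟨(0, 0), ?_, fun _ => ?_⟩⟩
    · rw [coeffD_zero (isParam_of_ord_eq_one hx v hs), zero_div, ev_zero, map_zero]
      simp
    · rw [coeffD_zero (isParam_of_ord_eq_one hx v hs), zero_div, ev_zero, map_zero]
      exact mul_nonneg (zero_le_one.trans hA) (abv.nonneg _)
  -- the global family
  set t : Fin (n + 1) × Fin (n + 1) → F := fun p => coeffD x (wr K f p.1 p.2) with ht
  set s' : F := coeffD x σ with hs'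
  -- local facts at a place
  have hb : ∀ (v : Place K F) (i : Fin (n + 1)) (s : F), Admissible f v i → v.ord s = 1 →
      coeffD s σ / f i ^ 2 ≠ 0 ∧ coeffD s σ / f i ^ 2 ∈ v.toValuationSubring := by
    intro v i s hi hs
    have hp := isParam_of_ord_eq_one hx v hs
    have hc : coeffD s σ ≠ 0 := fun h => hσ0 ((coeffD_eq_zero_iff hp σ).mp h)
    have hne : coeffD s σ / f i ^ 2 ≠ 0 := div_ne_zero hc (pow_ne_zero 2 (hf i))
    refine ⟨hne, mem_of_ord_nonneg v ?_⟩
    rw [div_eq_mul_inv, v.ord_mul hc (inv_ne_zero (pow_ne_zero 2 (hf i))), v.ord_inv,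
      ord_coeffD hx v hs hσ0, pow_two, v.ord_mul (hf i) (hf i),
      (admissible_iff v f i).mp hi]
    have := hσ v
    omega
  have hbpf : ∀ (v : Place K F) (j : Fin (n + 1) × Fin (n + 1)), t j ≠ 0 →
      (∀ p, t p / t j ∈ v.toValuationSubring) → s' / t j ∈ v.toValuationSubring := by
    intro v j hj hreg
    obtain ⟨i, hi⟩ := exists_admissible v f
    obtain ⟨s, hs⟩ := exists_ord_eq_one v
    obtain ⟨κ, hκ, hfac⟩ := exists_local_factor (f := f) hx v hf i hs
    obtain ⟨p₀, hp₀⟩ := Function.ne_iff.mp (hE2 v i s hi hs)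
    rw [Pi.zero_apply] at hp₀
    obtain ⟨hmem₀, hev₀⟩ := ev_coeffD_wr hx v hf hi hs p₀.1 p₀.2
    rw [Prod.mk.eta] at hev₀
    rw [← hev₀] at hp₀
    obtain ⟨ha₀, hord₀⟩ := ord_eq_zero_of_ev_ne_zero hx v hmem₀ hp₀
    obtain ⟨hmemj, -⟩ := ev_coeffD_wr hx v hf hi hs j.1 j.2
    obtain ⟨hb0, hbmem⟩ := hb v i s hi hs
    -- the `j`-th Wronskian is a unit at `v`
    have htj : t j = coeffD s (wr K f j.1 j.2) / f i ^ 2 * κ := hfac _
    have haj : coeffD s (wr K f j.1 j.2) / f i ^ 2 ≠ 0 := by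
      intro h0
      rw [htj, h0, zero_mul] at hj
      exact hj rfl
    have hordj : v.ord (coeffD s (wr K f j.1 j.2) / f i ^ 2) = 0 := by
      have h1 : t p₀ / t j = (coeffD s (wr K f p₀.1 p₀.2) / f i ^ 2) /
          (coeffD s (wr K f j.1 j.2) / f i ^ 2) := by
        rw [htj, show t p₀ = coeffD s (wr K f p₀.1 p₀.2) / f i ^ 2 * κ from hfac _,
          mul_div_mul_right _ _ hκ]
      have h2 := hreg p₀
      rw [h1, mem_iff_ord_nonneg v (div_ne_zero ha₀ haj), div_eq_mul_inv,
        v.ord_mul ha₀ (inv_ne_zero haj), v.ord_inv, hord₀] at h2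
      have h3 := (mem_iff_ord_nonneg v haj).mp hmemj
      omega
    have h4 : s' / t j = (coeffD s σ / f i ^ 2) / (coeffD s (wr K f j.1 j.2) / f i ^ 2) := by
      rw [htj, show s' = coeffD s σ / f i ^ 2 * κ from hfac _, mul_div_mul_right _ _ hκ]
    rw [h4]
    apply mem_of_ord_nonneg
    rw [div_eq_mul_inv, v.ord_mul hb0 (inv_ne_zero haj), v.ord_inv, hordj]
    have := (mem_iff_ord_nonneg v hb0).mp hbmem
    omega
  obtain ⟨S, N, hSN⟩ := Fermat.Agent.S17.Model.BPF.exists_bound hx t s' hbpf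
  refine ⟨S, N, fun abv A hA hS v i s hi hs => ?_⟩
  obtain ⟨κ, hκ, hfac⟩ := exists_local_factor (f := f) hx v hf i hs
  obtain ⟨p₀, hp₀⟩ := Function.ne_iff.mp (hE2 v i s hi hs)
  rw [Pi.zero_apply] at hp₀
  obtain ⟨hmem₀, hev₀⟩ := ev_coeffD_wr hx v hf hi hs p₀.1 p₀.2
  rw [Prod.mk.eta] at hev₀
  have hne₀ : ev hx v (coeffD s (wr K f p₀.1 p₀.2) / f i ^ 2) ≠ 0 := by
    rw [hev₀]; exact hp₀
  obtain ⟨ha₀, -⟩ := ord_eq_zero_of_ev_ne_zero hx v hmem₀ hne₀
  obtain ⟨hb0, hbmem⟩ := hb v i s hi hs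
  have htp : ∀ p, t p / t p₀ = (coeffD s (wr K f p.1 p.2) / f i ^ 2) /
      (coeffD s (wr K f p₀.1 p₀.2) / f i ^ 2) := by
    intro p
    rw [show t p = coeffD s (wr K f p.1 p.2) / f i ^ 2 * κ from hfac _,
      show t p₀ = coeffD s (wr K f p₀.1 p₀.2) / f i ^ 2 * κ from hfac _,
      mul_div_mul_right _ _ hκ]
  have hts : s' / t p₀ = (coeffD s σ / f i ^ 2) /
      (coeffD s (wr K f p₀.1 p₀.2) / f i ^ 2) := by
    rw [show s' = coeffD s σ / f i ^ 2 * κ from hfac _,
      show t p₀ = coeffD s (wr K f p₀.1 p₀.2) / f i ^ 2 * κ from hfac _,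
      mul_div_mul_right _ _ hκ]
  have htp₀ : t p₀ ≠ 0 := by
    rw [show t p₀ = coeffD s (wr K f p₀.1 p₀.2) / f i ^ 2 * κ from hfac _]
    exact mul_ne_zero ha₀ hκ
  have hreg : ∀ p, t p / t p₀ ∈ v.toValuationSubring := by
    intro p
    rw [htp]
    exact (ev_div hx v (ev_coeffD_wr hx v hf hi hs p.1 p.2).1 hmem₀ hne₀).1
  have hsreg : s' / t p₀ ∈ v.toValuationSubring := by
    rw [hts]
    exact (ev_div hx v hbmem hmem₀ hne₀).1
  obtain ⟨p, hp1, hp2⟩ := hSN abv A hA hS v p₀ htp₀ hreg hsreg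
  have hτpos : 0 < abv (tauvec hx v f i s p₀) := abv.pos hp₀
  have e1 : evalAt hx v ⟨s' / t p₀, hsreg⟩
      = ev hx v (coeffD s σ / f i ^ 2) / tauvec hx v f i s p₀ := by
    rw [← ev_of_mem hx v hsreg, hts, (ev_div hx v hbmem hmem₀ hne₀).2, hev₀]
  have e2 : evalAt hx v ⟨t p / t p₀, hreg p⟩
      = tauvec hx v f i s p / tauvec hx v f i s p₀ := by
    obtain ⟨hmemp, hevp⟩ := ev_coeffD_wr hx v hf hi hs p.1 p.2
    rw [Prod.mk.eta] at hevp
    rw [← ev_of_mem hx v (hreg p), htp, (ev_div hx v hmemp hmem₀ hne₀).2, hev₀, hevp]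
  rw [e1, e2, map_div₀, map_div₀, ← mul_div_assoc, div_le_div_iff_of_pos_right hτpos] at hp1
  refine ⟨p, hp1, fun hna => ?_⟩
  have := hp2 hna
  rwa [e1, e2, map_div₀, map_div₀, ← mul_div_assoc, div_le_div_iff_of_pos_right hτpos] at this

end Bound

/-! ### the core of the one-sided adjunction inequality -/

section Core

variable {n : ℕ} {f : Fin (n + 1) → F}

omit [IsAlgClosed K] [CharZero K] in
theorem nuAt_le (v : Place K F) (j : Fin (n + 1)) : nuAt f v ≤ v.ord (f j) :=
  Finset.inf'_le _ (Finset.mem_univ j)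

/-- **(W5) = B.12 before B.7**: if `G η` is holomorphic (`G = formOf f a` a linear form, `η` a
differential) then at every affine place `v` (all `f j` regular, `f 0 = 1`) at which `η` is
regular: `|x_j(v)| |x_k(v)| |G(v)| |(η / ds)(v)| ≤ C ‖τ_v‖` for all `j, k`, with `C = N * A`
(`C = A` for nonarchimedean absolute values), `N` and the finite set `S` of constants to be
dominated by `A` independent of `v`, `s`, `abv`. -/
theorem adjunction_core (hx : IsFF K x) (hf : ∀ j, f j ≠ 0) (h0 : f 0 = 1)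
    (hE2 : ∀ (v : Place K F) (i : Fin (n + 1)) (s : F), Admissible f v i → v.ord s = 1 →
      tauvec hx v f i s ≠ 0)
    (η : Ω[F⁄K]) (a : Fin (n + 1) → K)
    (hGη : ∀ v : Place K F, 0 ≤ v.ord (formOf f a) + v.ordDifferential η) :
    ∃ (S : Finset K) (N : ℕ), ∀ (abv : AbsoluteValue K ℝ) (A : ℝ), 1 ≤ A →
      (∀ c ∈ S, abv c ≤ A) →
      ∀ (v : Place K F) (s : F), Admissible f v 0 → v.ord s = 1 → 0 ≤ v.ordDifferential η →
        ∀ j k : Fin (n + 1), ∃ p : Fin (n + 1) × Fin (n + 1),
          abv (zvec hx v f 0 j) * abv (zvec hx v f 0 k) * abv (∑ l, a l * zvec hx v f 0 l) *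
              abv (ev hx v (coeffD s η)) ≤ N * A * abv (tauvec hx v f 0 s p) ∧
          (IsNonarchimedean abv →
            abv (zvec hx v f 0 j) * abv (zvec hx v f 0 k) * abv (∑ l, a l * zvec hx v f 0 l) *
              abv (ev hx v (coeffD s η)) ≤ A * abv (tauvec hx v f 0 s p)) := by
  classical
  -- degenerate cases
  by_cases hdeg : formOf f a = 0 ∨ η = 0
  · refine ⟨∅, 0, fun abv A hA _ v s hi hs _ j k => ?_⟩
    have hzero : abv (∑ l, a l * zvec hx v f 0 l) * abv (ev hx v (coeffD s η)) = 0 := by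
      rcases hdeg with h | h
      · rw [← ev_formOf hx v hf a hi, h, zero_div, ev_zero, map_zero, zero_mul]
      · rw [h, coeffD_zero (isParam_of_ord_eq_one hx v hs), ev_zero, map_zero, mul_zero]
    refine ⟨(0, 0), ?_, fun _ => ?_⟩
    · rw [mul_assoc, hzero, mul_zero]
      simp
    · rw [mul_assoc, hzero, mul_zero]
      exact mul_nonneg (zero_le_one.trans hA) (abv.nonneg _)
  push Not at hdeg
  obtain ⟨hG0, hη0⟩ := hdeg
  -- the sections `x_j x_k G η` of `K + 2 D0`
  have hσ : ∀ (j k : Fin (n + 1)) (v : Place K F),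
      2 * nuAt f v ≤ v.ordDifferential ((f j * f k * formOf f a) • η) := by
    intro j k v
    have hres := Fermat.Agent.S24.Hurwitz.surjective_residue hx v
    have htr := Fermat.Agent.S24.Hurwitz.isAlgebraic_of_isFF hx
    rw [Fermat.Agent.S24.LocalDiff.ordDifferential_smul' v hres htr
      (mul_ne_zero (mul_ne_zero (hf j) (hf k)) hG0) hη0,
      v.ord_mul (mul_ne_zero (hf j) (hf k)) hG0, v.ord_mul (hf j) (hf k)]
    have h1 := nuAt_le (f := f) v j
    have h2 := nuAt_le (f := f) v k
    have h3 := hGη v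
    omega
  have hex : ∀ jk : Fin (n + 1) × Fin (n + 1), ∃ (S : Finset K) (N : ℕ),
      ∀ (abv : AbsoluteValue K ℝ) (A : ℝ), 1 ≤ A → (∀ c ∈ S, abv c ≤ A) →
      ∀ (v : Place K F) (i : Fin (n + 1)) (s : F), Admissible f v i → v.ord s = 1 →
        ∃ p : Fin (n + 1) × Fin (n + 1),
          abv (ev hx v (coeffD s ((f jk.1 * f jk.2 * formOf f a) • η) / f i ^ 2))
            ≤ N * A * abv (tauvec hx v f i s p) ∧
          (IsNonarchimedean abv →
            abv (ev hx v (coeffD s ((f jk.1 * f jk.2 * formOf f a) • η) / f i ^ 2))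
              ≤ A * abv (tauvec hx v f i s p)) :=
    fun jk => exists_bound_differential hx hf hE2 _ (hσ jk.1 jk.2)
  choose S N hSN using hex
  refine ⟨Finset.univ.biUnion S, ∑ jk, N jk, fun abv A hA hS v s hi hs hηv j k => ?_⟩
  have hA0 : 0 ≤ A := zero_le_one.trans hA
  obtain ⟨p, hp1, hp2⟩ := hSN (j, k) abv A hA
    (fun c hc => hS c (Finset.mem_biUnion.mpr ⟨(j, k), Finset.mem_univ _, hc⟩)) v 0 s hi hs
  -- the value of the section
  have hp := isParam_of_ord_eq_one hx v hs
  have hmemj : f j ∈ v.toValuationSubring := by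
    have := div_mem v hf hi j
    rwa [h0, div_one] at this
  have hmemk : f k ∈ v.toValuationSubring := by
    have := div_mem v hf hi k
    rwa [h0, div_one] at this
  have hmemG : formOf f a ∈ v.toValuationSubring := by
    have := formOf_div_mem v hf a hi
    rwa [h0, div_one] at this
  have hmemη : coeffD s η ∈ v.toValuationSubring := by
    apply mem_of_ord_nonneg
    rw [ord_coeffD hx v hs hη0]
    exact hηv
  have hzj : zvec hx v f 0 j = ev hx v (f j) := by
    unfold zvec
    rw [h0, div_one]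
  have hzk : zvec hx v f 0 k = ev hx v (f k) := by
    unfold zvec
    rw [h0, div_one]
  have hzG : ∑ l, a l * zvec hx v f 0 l = ev hx v (formOf f a) := by
    rw [← ev_formOf hx v hf a hi, h0, div_one]
  have hval : ev hx v (coeffD s ((f j * f k * formOf f a) • η) / f 0 ^ 2)
      = zvec hx v f 0 j * zvec hx v f 0 k * (∑ l, a l * zvec hx v f 0 l) *
        ev hx v (coeffD s η) := by
    rw [coeffD_smul hp, h0, one_pow, div_one, hzj, hzk, hzG,
      ev_mul hx v (mul_mem (mul_mem hmemj hmemk) hmemG) hmemη,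
      ev_mul hx v (mul_mem hmemj hmemk) hmemG, ev_mul hx v hmemj hmemk]
  have habs : abv (zvec hx v f 0 j) * abv (zvec hx v f 0 k) *
      abv (∑ l, a l * zvec hx v f 0 l) * abv (ev hx v (coeffD s η))
      = abv (ev hx v (coeffD s ((f j * f k * formOf f a) • η) / f 0 ^ 2)) := by
    rw [hval, map_mul, map_mul, map_mul]
  rw [habs]
  refine ⟨p, hp1.trans ?_, hp2⟩
  refine mul_le_mul_of_nonneg_right (mul_le_mul_of_nonneg_right ?_ hA0) (abv.nonneg _)
  exact_mod_cast Finset.single_le_sum (f := N) (fun _ _ => Nat.zero_le _) (Finset.mem_univ (j, k))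

end Core

end Place

end Fermat.Agent.S17.Adj.Wronskian
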