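import Mathlib
import Fermat.Agent.S17.Adj.Wronskian
import Fermat.Agent.S17.Local.FixedForm

/-!
# PROJECT H (S17), seam S-8: the one-sided adjunction inequality B.12, local form

* `one_sided_abstract` : pure arithmetic at ONE absolute value, in the conventions of
  `Local/Chordal` (`nrm`, `chord`) and `Local/FixedForm` (`chordProd`): from
  `‖z‖² |G_a| |η| ≤ T` (`a = 0, 1`), the lower halves of B.7(a) for the two fixed forms `G_a`
  with zero multisets `E + E'_a`, and the alternative "`P` is `ρ`-far from `E'_0` or from `E'_1`":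
  `min_a (c_a ρ ^ |E'_a|) ‖z‖^(e+2) ∏_{T ∈ E} d(P,T) |η| ≤ T`;
* `one_sided_abstract_log` : the same in logarithmic form;
* `adjunction_core_nrm` : (W5) of `Adj/Wronskian` with sup norms;
* `one_sided` : B.12 on the curve, the lower halves of B.7(a) being hypotheses.
-/

set_option autoImplicit false

namespace Fermat.Agent.S17.Adj.OneSided

open AlgebraicCurve KaehlerDifferential Fermat.Agent.S24.FF
  Fermat.Agent.S17.Model.Lift Fermat.Agent.S17.Local.Chordal Fermat.Agent.S17.Local.FixedForm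
  Fermat.Agent.S17.Adj.Wronskian

/-! ### abstract arithmetic -/

section Abstract

variable {Om : Type*} [Field Om] (abv : AbsoluteValue Om ℝ) {ι : Type*} [Finite ι]
variable {X : Type*} (z : X → ι → Om)

/-- **B.12, abstract local form** -/
theorem one_sided_abstract (G : Fin 2 → Om) (etaval : Om) (T : ℝ)
    (ZE : Multiset X) (ZE' : Fin 2 → Multiset X) (e : ℕ) {c : Fin 2 → ℝ} (hc : ∀ a, 0 ≤ c a)
    {ρ : ℝ} (hρ : 0 ≤ ρ) (P : X)
    (hcore : ∀ a, nrm abv (z P) ^ 2 * abv (G a) * abv etaval ≤ T)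
    (hlow : ∀ a, c a * nrm abv (z P) ^ e * chordProd abv z P ZE * chordProd abv z P (ZE' a)
      ≤ abv (G a))
    (hfar : (∀ R ∈ ZE' 0, ρ ≤ chord abv (z P) (z R)) ∨ (∀ R ∈ ZE' 1, ρ ≤ chord abv (z P) (z R))) :
    min (c 0 * ρ ^ Multiset.card (ZE' 0)) (c 1 * ρ ^ Multiset.card (ZE' 1))
      * nrm abv (z P) ^ (e + 2) * chordProd abv z P ZE * abv etaval ≤ T := by
  have hn : 0 ≤ nrm abv (z P) := nrm_nonneg abv _
  have hE : 0 ≤ chordProd abv z P ZE := chordProd_nonneg abv z P ZE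
  have hη : 0 ≤ abv etaval := abv.nonneg _
  have key : ∀ a : Fin 2, (∀ R ∈ ZE' a, ρ ≤ chord abv (z P) (z R)) →
      c a * ρ ^ Multiset.card (ZE' a) * nrm abv (z P) ^ (e + 2) * chordProd abv z P ZE
        * abv etaval ≤ T := by
    intro a ha
    have h1 : ρ ^ Multiset.card (ZE' a) ≤ chordProd abv z P (ZE' a) :=
      pow_card_le_chordProd abv z P (ZE' a) hρ ha
    have h2 : c a * ρ ^ Multiset.card (ZE' a) * nrm abv (z P) ^ (e + 2) * chordProd abv z P ZE
        = (c a * nrm abv (z P) ^ e * chordProd abv z P ZE * ρ ^ Multiset.card (ZE' a))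
          * nrm abv (z P) ^ 2 := by
      rw [pow_add]; ring
    have h3 : c a * nrm abv (z P) ^ e * chordProd abv z P ZE * ρ ^ Multiset.card (ZE' a)
        ≤ abv (G a) :=
      le_trans (mul_le_mul_of_nonneg_left h1
        (mul_nonneg (mul_nonneg (hc a) (pow_nonneg hn e)) hE)) (hlow a)
    calc c a * ρ ^ Multiset.card (ZE' a) * nrm abv (z P) ^ (e + 2) * chordProd abv z P ZE
          * abv etaval
        = (c a * nrm abv (z P) ^ e * chordProd abv z P ZE * ρ ^ Multiset.card (ZE' a))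
          * nrm abv (z P) ^ 2 * abv etaval := by rw [h2]
      _ ≤ abv (G a) * nrm abv (z P) ^ 2 * abv etaval :=
        mul_le_mul_of_nonneg_right (mul_le_mul_of_nonneg_right h3 (pow_nonneg hn 2)) hη
      _ = nrm abv (z P) ^ 2 * abv (G a) * abv etaval := by ring
      _ ≤ T := hcore a
  have hfac : 0 ≤ nrm abv (z P) ^ (e + 2) * chordProd abv z P ZE * abv etaval :=
    mul_nonneg (mul_nonneg (pow_nonneg hn _) hE) hη
  rcases hfar with h | h
  · refine le_trans ?_ (key 0 h)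
    rw [mul_assoc, mul_assoc, mul_assoc (c 0 * ρ ^ Multiset.card (ZE' 0)), mul_assoc
      (c 0 * ρ ^ Multiset.card (ZE' 0))]
    rw [← mul_assoc (nrm abv (z P) ^ (e + 2))]
    exact mul_le_mul_of_nonneg_right (min_le_left _ _) hfac
  · refine le_trans ?_ (key 1 h)
    rw [mul_assoc, mul_assoc, mul_assoc (c 1 * ρ ^ Multiset.card (ZE' 1)), mul_assoc
      (c 1 * ρ ^ Multiset.card (ZE' 1))]
    rw [← mul_assoc (nrm abv (z P) ^ (e + 2))]
    exact mul_le_mul_of_nonneg_right (min_le_right _ _) hfac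

/-- **B.12, abstract local form, logarithmic version** -/
theorem one_sided_abstract_log (etaval : Om) {T m : ℝ} (ZE : Multiset X) (e : ℕ) (P : X)
    (hm : 0 < m) (hzP : z P ≠ 0) (hoff : ∀ R ∈ ZE, 0 < chord abv (z P) (z R))
    (hη : etaval ≠ 0)
    (h : m * nrm abv (z P) ^ (e + 2) * chordProd abv z P ZE * abv etaval ≤ T) :
    ((e : ℝ) + 2) * Real.log (nrm abv (z P)) + logChordSum abv z P ZE + Real.log (abv etaval)
      ≤ Real.log T - Real.log m := by
  have hn : 0 < nrm abv (z P) := (nrm_pos_iff abv).mpr hzP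
  have hE : 0 < chordProd abv z P ZE := chordProd_pos abv z P ZE hoff
  have hηp : 0 < abv etaval := abv.pos hη
  have hpn : 0 < nrm abv (z P) ^ (e + 2) := pow_pos hn _
  have hL : 0 < m * nrm abv (z P) ^ (e + 2) * chordProd abv z P ZE * abv etaval :=
    mul_pos (mul_pos (mul_pos hm hpn) hE) hηp
  have h1 := Real.log_le_log hL h
  rw [Real.log_mul (mul_pos (mul_pos hm hpn) hE).ne' hηp.ne',
    Real.log_mul (mul_pos hm hpn).ne' hE.ne', Real.log_mul hm.ne' hpn.ne', Real.log_pow,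
    log_chordProd abv z P ZE hoff] at h1
  push_cast at h1
  linarith

end Abstract

/-! ### on the curve -/

section Curve

universe u w

variable {K : Type w} {F : Type u} [Field K] [Field F] [Algebra K F] [IsAlgClosed K] [CharZero K]
  {x : F} {n : ℕ} {f : Fin (n + 1) → F}

/-- **(W5) with sup norms**: `‖x̃P‖² |G(P)| |(η / ds_P)(P)| ≤ C ‖τP‖` -/
theorem adjunction_core_nrm (hx : IsFF K x) (hf : ∀ j, f j ≠ 0) (h0 : f 0 = 1)
    (hE2 : ∀ (v : Place K F) (i : Fin (n + 1)) (s : F), Admissible f v i → v.ord s = 1 →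
      tauvec hx v f i s ≠ 0)
    (η : Ω[F⁄K]) (a : Fin (n + 1) → K)
    (hGη : ∀ v : Place K F, 0 ≤ v.ord (formOf f a) + v.ordDifferential η) :
    ∃ (S : Finset K) (N : ℕ), ∀ (abv : AbsoluteValue K ℝ) (A : ℝ), 1 ≤ A →
      (∀ c ∈ S, abv c ≤ A) →
      ∀ (v : Place K F) (s : F), Admissible f v 0 → v.ord s = 1 → 0 ≤ v.ordDifferential η →
        nrm abv (zvec hx v f 0) ^ 2 * abv (∑ l, a l * zvec hx v f 0 l) *
            abv (ev hx v (coeffD s η)) ≤ N * A * nrm abv (tauvec hx v f 0 s) ∧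
        (IsNonarchimedean abv →
          nrm abv (zvec hx v f 0) ^ 2 * abv (∑ l, a l * zvec hx v f 0 l) *
            abv (ev hx v (coeffD s η)) ≤ A * nrm abv (tauvec hx v f 0 s)) := by
  obtain ⟨S, N, h⟩ := adjunction_core hx hf h0 hE2 η a hGη
  refine ⟨S, N, fun abv A hA hS v s hi hs hη => ?_⟩
  obtain ⟨j, hj⟩ := exists_eq_nrm abv (zvec hx v f 0)
  obtain ⟨p, hp1, hp2⟩ := h abv A hA hS v s hi hs hη j j
  have hA0 : 0 ≤ A := zero_le_one.trans hA
  have e1 : nrm abv (zvec hx v f 0) ^ 2 = abv (zvec hx v f 0 j) * abv (zvec hx v f 0 j) := by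
    rw [hj, pow_two]
  rw [e1]
  refine ⟨hp1.trans ?_, fun hna => (hp2 hna).trans ?_⟩
  · exact mul_le_mul_of_nonneg_left (le_nrm abv _ p) (mul_nonneg (Nat.cast_nonneg N) hA0)
  · exact mul_le_mul_of_nonneg_left (le_nrm abv _ p) hA0

/-- **B.12 on the curve** (local form, one absolute value): `G₀ = formOf f (a 0)`,
`G₁ = formOf f (a 1)` two linear forms with `G_b η` holomorphic; the lower halves of B.7(a) for
`G₀, G₁` (zero multisets `ZE + ZE' b`) and the far-alternative are hypotheses at the place `v`.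
The constant `N * A` (`A` in the nonarchimedean case) is uniform in `v`, `s`, `abv`. -/
theorem one_sided (hx : IsFF K x) (hf : ∀ j, f j ≠ 0) (h0 : f 0 = 1)
    (hE2 : ∀ (v : Place K F) (i : Fin (n + 1)) (s : F), Admissible f v i → v.ord s = 1 →
      tauvec hx v f i s ≠ 0)
    (η : Ω[F⁄K]) (a : Fin 2 → Fin (n + 1) → K)
    (hGη : ∀ (b : Fin 2) (v : Place K F), 0 ≤ v.ord (formOf f (a b)) + v.ordDifferential η) :
    ∃ (S : Finset K) (N : ℕ), ∀ (abv : AbsoluteValue K ℝ) (A : ℝ), 1 ≤ A →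
      (∀ c ∈ S, abv c ≤ A) →
      ∀ (v : Place K F) (s : F), Admissible f v 0 → v.ord s = 1 → 0 ≤ v.ordDifferential η →
      ∀ (ZE : Multiset (Place K F)) (ZE' : Fin 2 → Multiset (Place K F)) (e : ℕ)
        (c : Fin 2 → ℝ) (ρ : ℝ), (∀ b, 0 ≤ c b) → 0 ≤ ρ →
        (∀ b, c b * nrm abv (zvec hx v f 0) ^ e
            * chordProd abv (fun w : Place K F => zvec hx w f 0) v ZE
            * chordProd abv (fun w : Place K F => zvec hx w f 0) v (ZE' b)
          ≤ abv (∑ l, a b l * zvec hx v f 0 l)) →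
        ((∀ R ∈ ZE' 0, ρ ≤ chord abv (zvec hx v f 0) (zvec hx R f 0)) ∨
          (∀ R ∈ ZE' 1, ρ ≤ chord abv (zvec hx v f 0) (zvec hx R f 0))) →
        min (c 0 * ρ ^ Multiset.card (ZE' 0)) (c 1 * ρ ^ Multiset.card (ZE' 1))
            * nrm abv (zvec hx v f 0) ^ (e + 2)
            * chordProd abv (fun w : Place K F => zvec hx w f 0) v ZE
            * abv (ev hx v (coeffD s η)) ≤ N * A * nrm abv (tauvec hx v f 0 s) ∧
        (IsNonarchimedean abv →
          min (c 0 * ρ ^ Multiset.card (ZE' 0)) (c 1 * ρ ^ Multiset.card (ZE' 1))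
            * nrm abv (zvec hx v f 0) ^ (e + 2)
            * chordProd abv (fun w : Place K F => zvec hx w f 0) v ZE
            * abv (ev hx v (coeffD s η)) ≤ A * nrm abv (tauvec hx v f 0 s)) := by
  classical
  obtain ⟨S0, N0, h0'⟩ := adjunction_core_nrm hx hf h0 hE2 η (a 0) (hGη 0)
  obtain ⟨S1, N1, h1'⟩ := adjunction_core_nrm hx hf h0 hE2 η (a 1) (hGη 1)
  refine ⟨S0 ∪ S1, N0 + N1, fun abv A hA hS v s hi hs hη ZE ZE' e c ρ hc hρ hlow hfar => ?_⟩
  have hA0 : 0 ≤ A := zero_le_one.trans hA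
  obtain ⟨ha1, ha2⟩ := h0' abv A hA (fun c hc => hS c (Finset.mem_union_left _ hc)) v s hi hs hη
  obtain ⟨hb1, hb2⟩ := h1' abv A hA (fun c hc => hS c (Finset.mem_union_right _ hc)) v s hi hs hη
  have hτ : 0 ≤ nrm abv (tauvec hx v f 0 s) := nrm_nonneg abv _
  constructor
  · refine one_sided_abstract abv (fun w : Place K F => zvec hx w f 0)
      (fun b => ∑ l, a b l * zvec hx v f 0 l) (ev hx v (coeffD s η))
      ((N0 + N1 : ℕ) * A * nrm abv (tauvec hx v f 0 s)) ZE ZE' e hc hρ v ?_ hlow hfar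
    intro b
    have hN0 : (N0 : ℝ) ≤ ((N0 + N1 : ℕ) : ℝ) := by exact_mod_cast Nat.le_add_right N0 N1
    have hN1 : (N1 : ℝ) ≤ ((N0 + N1 : ℕ) : ℝ) := by exact_mod_cast Nat.le_add_left N1 N0
    fin_cases b
    · exact ha1.trans (mul_le_mul_of_nonneg_right (mul_le_mul_of_nonneg_right hN0 hA0) hτ)
    · exact hb1.trans (mul_le_mul_of_nonneg_right (mul_le_mul_of_nonneg_right hN1 hA0) hτ)
  · intro hna
    refine one_sided_abstract abv (fun w : Place K F => zvec hx w f 0)
      (fun b => ∑ l, a b l * zvec hx v f 0 l) (ev hx v (coeffD s η))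
      (A * nrm abv (tauvec hx v f 0 s)) ZE ZE' e hc hρ v ?_ hlow hfar
    intro b
    fin_cases b
    · exact ha2 hna
    · exact hb2 hna

end Curve

end Fermat.Agent.S17.Adj.OneSided
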