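import Mathlib
import Fermat.Agent.S17.Adj.OneSided
import Fermat.Agent.S17.Ht.Tot

/-!
# PROJECT H (S17), seam S-8: the core of B.12 over `Qbar`, in the language of `Ht/*`

`K = Qbar`, one fixed absolute value `absAt v` above every place `v` of `ℚ`.  The core inequality
`‖x̃P‖² |G(P)| |(η / ds_P)(P)| ≤ C_v ‖τP‖` of `Adj/Wronskian` (`adjunction_core`) in logarithmic form,
with constants `c1 v = log C_v` which vanish at almost all places:

`logAbs v ((η / ds_P)(P)) + 2 lam v (x̃P) + logAbs v (G(x̃P)) ≤ c1 v + lam v (τP)`.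

This is hypothesis `hcore` of `Adj/PacketAbs.kapE_le_kapTau_of_star`.
-/

set_option autoImplicit false

noncomputable section

namespace Fermat.Agent.S17.Adj.CoreQbar

open AlgebraicCurve KaehlerDifferential Fermat.Agent.S24.FF Fermat.Agent.S17.Ht
  Fermat.Agent.S17.Model.Lift Fermat.Agent.S17.Adj.Wronskian Fermat.Agent.S17.Adj.OneSided
  Fermat.Agent.S17.Local

universe u

variable {F : Type u} [Field F] [Algebra Qbar F] {x : F} {n : ℕ} {f : Fin (n + 1) → F}

/-- a bound for a finite set of constants which is `1` wherever all of them are integral -/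
def bigA (S : Finset Qbar) (v : Pl) : ℝ :=
  letI := Classical.propDecidable
  if ∀ c ∈ S, absAt v c ≤ 1 then 1 else 1 + ∑ c ∈ S, absAt v c

theorem one_le_bigA (S : Finset Qbar) (v : Pl) : 1 ≤ bigA S v := by
  unfold bigA
  split_ifs
  · exact le_rfl
  · have : 0 ≤ ∑ c ∈ S, absAt v c := Finset.sum_nonneg fun c _ => (absAt v).nonneg c
    linarith

theorem le_bigA (S : Finset Qbar) (v : Pl) {c : Qbar} (hc : c ∈ S) : absAt v c ≤ bigA S v := by
  unfold bigA
  split_ifs with h
  · exact h c hc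
  · have : absAt v c ≤ ∑ c ∈ S, absAt v c :=
      Finset.single_le_sum (f := fun c => absAt v c) (fun c _ => (absAt v).nonneg c) hc
    linarith

theorem bigA_eq_one (S : Finset Qbar) (v : Pl) (h : ∀ c ∈ S, absAt v c ≤ 1) : bigA S v = 1 := by
  unfold bigA
  rw [if_pos h]

/-- the local constant: `max 1 N * A_v` at the archimedean place, `A_v` at the finite places -/
def bigC (S : Finset Qbar) (N : ℕ) : Pl → ℝ
  | none => (max 1 N : ℕ) * bigA S none
  | some p => bigA S (some p)

theorem bigC_pos (S : Finset Qbar) (N : ℕ) (v : Pl) : 0 < bigC S N v := by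
  rcases v with _ | p
  · show 0 < ((max 1 N : ℕ) : ℝ) * bigA S none
    have h1 : (0 : ℝ) < ((max 1 N : ℕ) : ℝ) := by
      exact_mod_cast lt_of_lt_of_le Nat.zero_lt_one (le_max_left 1 N)
    exact mul_pos h1 (lt_of_lt_of_le zero_lt_one (one_le_bigA S none))
  · exact lt_of_lt_of_le zero_lt_one (one_le_bigA S (some p))

theorem az_log_bigC (S : Finset Qbar) (N : ℕ) : AZ (fun v => Real.log (bigC S N v)) :=
  az_log_of_forall_le_one S fun p hp => bigA_eq_one S (some p) hp

/-- **the core inequality over `Qbar`, logarithmic form** -/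
theorem core_absAt (hx : IsFF Qbar x) (hf : ∀ j, f j ≠ 0) (h0 : f 0 = 1)
    (hE2 : ∀ (P : Place Qbar F) (i : Fin (n + 1)) (s : F), Admissible f P i → P.ord s = 1 →
      tauvec hx P f i s ≠ 0)
    (η : Ω[F⁄Qbar]) (a : Fin (n + 1) → Qbar)
    (hGη : ∀ P : Place Qbar F, 0 ≤ P.ord (formOf f a) + P.ordDifferential η) :
    ∃ c1 : Pl → ℝ, AZ c1 ∧
      ∀ (v : Pl) (P : Place Qbar F) (s : F), Admissible f P 0 → P.ord s = 1 →
        0 ≤ P.ordDifferential η → (∑ l, a l * zvec hx P f 0 l) ≠ 0 →
        ev hx P (coeffD s η) ≠ 0 →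
        logAbs v (ev hx P (coeffD s η)) + 2 * lam v (zvec hx P f 0)
            + logAbs v (∑ l, a l * zvec hx P f 0 l)
          ≤ c1 v + lam v (tauvec hx P f 0 s) := by
  obtain ⟨S, N, h⟩ := adjunction_core_nrm hx hf h0 hE2 η a hGη
  refine ⟨fun v => Real.log (bigC S N v), az_log_bigC S N, fun v P s hi hs hη hG hηv => ?_⟩
  obtain ⟨h1, h2⟩ := h (absAt v) (bigA S v) (one_le_bigA S v) (fun c hc => le_bigA S v hc)
    P s hi hs hη
  -- positivity
  have hz : 0 < Chordal.nrm (absAt v) (zvec hx P f 0) :=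
    (Chordal.nrm_pos_iff _).mpr (zvec_ne_zero hx P hf 0)
  have hτ : 0 < Chordal.nrm (absAt v) (tauvec hx P f 0 s) :=
    (Chordal.nrm_pos_iff _).mpr (hE2 P 0 s hi hs)
  have hGp : 0 < absAt v (∑ l, a l * zvec hx P f 0 l) := (absAt v).pos hG
  have hηp : 0 < absAt v (ev hx P (coeffD s η)) := (absAt v).pos hηv
  have hCp := bigC_pos S N v
  -- the multiplicative inequality with the constant `bigC`
  have hmul : Chordal.nrm (absAt v) (zvec hx P f 0) ^ 2 * absAt v (∑ l, a l * zvec hx P f 0 l)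
      * absAt v (ev hx P (coeffD s η)) ≤ bigC S N v * Chordal.nrm (absAt v) (tauvec hx P f 0 s) := by
    rcases v with _ | p
    · refine h1.trans ?_
      show (N : ℝ) * bigA S none * _ ≤ ((max 1 N : ℕ) : ℝ) * bigA S none * _
      refine mul_le_mul_of_nonneg_right (mul_le_mul_of_nonneg_right ?_
        (zero_le_one.trans (one_le_bigA S none))) hτ.le
      exact_mod_cast le_max_right 1 N
    · exact h2 (isNonarchimedean_absAt_some p)
  have hlog := Real.log_le_log (mul_pos (mul_pos (pow_pos hz 2) hGp) hηp) hmul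
  rw [Real.log_mul (mul_pos (pow_pos hz 2) hGp).ne' hηp.ne',
    Real.log_mul (pow_pos hz 2).ne' hGp.ne', Real.log_pow, Real.log_mul hCp.ne' hτ.ne'] at hlog
  have e1 : lam v (zvec hx P f 0) = Real.log (Chordal.nrm (absAt v) (zvec hx P f 0)) := rfl
  have e2 : lam v (tauvec hx P f 0 s)
      = Real.log (Chordal.nrm (absAt v) (tauvec hx P f 0 s)) := rfl
  rw [e1, e2]
  unfold logAbs
  push_cast at hlog
  linarith

end Fermat.Agent.S17.Adj.CoreQbar
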