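import Mathlib
import Fermat.Agent.S17.Adj.Wronskian
import Fermat.Agent.S17.Dict.QStructure

/-!
# PROJECT H (S17), seam S-8: Galois equivariance of the values of a rational differential

`g : SemilinearAut K F` a semilinear automorphism of the function field fixing the separating
parameter `x` (`g • x = x`).  Then `d/dx` commutes with `g`, hence for a differential
`η = h • dx` with `g • h = h`:

* `smul_coeffD_D`   : `g • (dy / dx) = d(g • y) / dx`;
* `smul_coeffD`     : `g • (η / ds) = η / d(g • s)`;
* `ev_coeffD_smul`  : `(η / d(g • s))(g • v) = τ ((η / ds)(v))`, `τ = baseAut g`;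
* `ev_coeffD_ne_zero`: `(η / ds)(v) ≠ 0` where `η` has order `0`.

With `s_{σP} = σ s_P` (helper25 `param_gal`) this is the Galois equivariance of
`P ↦ (η_E / ds_P)(P)` needed by the product formula in B.12.
-/

set_option autoImplicit false

namespace Fermat.Agent.S17.Adj.Equivar

open AlgebraicCurve AlgebraicCurve.SemilinearAut KaehlerDifferential Fermat.Agent.S24.FF
  Fermat.Agent.S18.C.PlaceEval Fermat.Agent.S17.Model.Lift Fermat.Agent.S17.Adj.Wronskian

universe u w

variable {K : Type w} {F : Type u} [Field K] [Field F] [Algebra K F]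

/-! ### the residue map is equivariant (total form) -/

section Ev

variable [IsAlgClosed K] {x : F}

/-- `(g h)(g v) = τ (h(v))`, poles included -/
theorem ev_smul (hx : IsFF K x) (g : SemilinearAut K F) (v : Place K F) (h : F) :
    ev hx (g • v) (g • h) = baseAut g (ev hx v h) := by
  by_cases hmem : h ∈ v.toValuationSubring
  · have hmem' : g • h ∈ (g • v).toValuationSubring :=
      (Fermat.Agent.S17.Dict.QStructure.smul_mem_valuationSubring_iff g v h).mpr hmem
    rw [ev_of_mem hx v hmem, ev_of_mem hx (g • v) hmem']
    exact Fermat.Agent.S17.Dict.QStructure.evalAt_smul hx g v ⟨h, hmem⟩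
  · have hmem' : g • h ∉ (g • v).toValuationSubring := fun h' =>
      hmem ((Fermat.Agent.S17.Dict.QStructure.smul_mem_valuationSubring_iff g v h).mp h')
    rw [ev_of_not_mem hx v hmem, ev_of_not_mem hx (g • v) hmem', map_zero]

end Ev

/-! ### `d/dx` commutes with a semilinear automorphism fixing `x` -/

section Deriv

variable [CharZero K] {x : F}

/-- the derivation `y ↦ dy / dx` -/
noncomputable def ddx (hp : IsParam K x) : Derivation K F F :=
  Derivation.mk'
    { toFun := fun y => coeffD x (D K F y)
      map_add' := fun y z => by rw [map_add, coeffD_add hp]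
      map_smul' := fun c y => by
        show coeffD x (D K F (c • y)) = c • coeffD x (D K F y)
        rw [Derivation.map_smul, ← algebraMap_smul F c (D K F y), coeffD_smul hp,
          Algebra.smul_def] }
    (fun y z => by
      show coeffD x (D K F (y * z)) = y • coeffD x (D K F z) + z • coeffD x (D K F y)
      rw [Derivation.leibniz, coeffD_add hp, coeffD_smul hp, coeffD_smul hp]
      rfl)

omit [CharZero K] in
theorem ddx_apply (hp : IsParam K x) (y : F) : ddx hp y = coeffD x (D K F y) := rfl

/-- the conjugate derivation `y ↦ g⁻¹ • d(g • y)/dx` -/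
noncomputable def ddxConj (hp : IsParam K x) (g : SemilinearAut K F) : Derivation K F F :=
  Derivation.mk'
    { toFun := fun y => g⁻¹ • coeffD x (D K F (g • y))
      map_add' := fun y z => by rw [smul_add, map_add, coeffD_add hp, smul_add]
      map_smul' := fun c y => by
        show g⁻¹ • coeffD x (D K F (g • (c • y))) = c • (g⁻¹ • coeffD x (D K F (g • y)))
        have e1 : g • (c • y) = (baseAut g c) • (g • y) := by
          rw [Algebra.smul_def, Algebra.smul_def, smul_mul', SemilinearAut.smul_algebraMap]
        have e2 : g⁻¹ • algebraMap K F (baseAut g c) = algebraMap K F c := by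
          rw [SemilinearAut.smul_algebraMap, baseAut_inv]
          congr 1
          exact (baseAut g).symm_apply_apply c
        rw [e1, Derivation.map_smul, ← algebraMap_smul F (baseAut g c) (D K F (g • y)),
          coeffD_smul hp, smul_mul', e2, Algebra.smul_def] }
    (fun y z => by
      show g⁻¹ • coeffD x (D K F (g • (y * z)))
        = y • (g⁻¹ • coeffD x (D K F (g • z))) + z • (g⁻¹ • coeffD x (D K F (g • y)))
      rw [smul_mul', Derivation.leibniz, coeffD_add hp, coeffD_smul hp, coeffD_smul hp, smul_add,
        smul_mul', smul_mul', inv_smul_smul, inv_smul_smul]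
      rfl)

omit [CharZero K] in
theorem ddxConj_apply (hp : IsParam K x) (g : SemilinearAut K F) (y : F) :
    ddxConj hp g y = g⁻¹ • coeffD x (D K F (g • y)) := rfl

/-- **`d/dx` commutes with `g`** when `g • x = x` -/
theorem smul_coeffD_D (hx : IsFF K x) [IsAlgClosed K] (g : SemilinearAut K F) (hgx : g • x = x)
    (y : F) : g • coeffD x (D K F y) = coeffD x (D K F (g • y)) := by
  have hp := isParam_of_isFF hx
  have halg : Algebra.IsAlgebraic (IntermediateField.adjoin K {x}) F := by
    have := hx.finite
    exact Algebra.IsAlgebraic.of_finite _ _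
  have h0 : (ddxConj hp g - ddx hp) x = 0 := by
    rw [Derivation.sub_apply, ddxConj_apply, ddx_apply, hgx, coeffD_self hp, smul_one, sub_self]
  have h1 := Fermat.Agent.S24.LocalDiff.derivation_apply_eq_zero (ddxConj hp g - ddx hp) halg h0 y
  rw [Derivation.sub_apply, ddxConj_apply, ddx_apply, sub_eq_zero] at h1
  rw [← h1, smul_inv_smul]

end Deriv

/-! ### values of a rational differential -/

section Values

variable [IsAlgClosed K] [CharZero K] {x : F}

/-- `(dx / ds) (ds / dx) = 1` -/
theorem coeffD_D_mul (hx : IsFF K x) {s : F} (hs : IsParam K s) :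
    coeffD s (D K F x) * coeffD x (D K F s) = 1 := by
  have hp := isParam_of_isFF hx
  have := coeffD_change hs hp (D K F x)
  rw [coeffD_self hp] at this
  exact this.symm

/-- the image of a parameter under `g` is a parameter -/
theorem isParam_smul (hx : IsFF K x) (g : SemilinearAut K F) (hgx : g • x = x) {s : F}
    (hs : IsParam K s) : IsParam K (g • s) := by
  have hp := isParam_of_isFF hx
  have hne : coeffD x (D K F (g • s)) ≠ 0 := by
    rw [← smul_coeffD_D hx g hgx]
    intro h0
    have h1 : coeffD x (D K F s) = 0 := by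
      have := congrArg (fun y => g⁻¹ • y) h0
      simpa using this
    exact hs.1 ((coeffD_eq_zero_iff hp _).mp h1)
  have hD : D K F (g • s) ≠ 0 := fun h0 => hne (by rw [h0, coeffD_zero hp])
  have e : coeffD x (D K F (g • s)) • D K F x = D K F (g • s) := coeffD_spec hp _
  set c0 : F := coeffD x (D K F (g • s)) with hc0
  clear_value c0
  refine ⟨hD, fun ω => ⟨coeffD x ω / c0, ?_⟩⟩
  rw [← e, smul_smul, div_mul_cancel₀ _ hne, coeffD_spec hp]

/-- **`g • (η / ds) = η / d(g • s)`** for `η = h • dx` with `g • h = h`, `g • x = x` -/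
theorem smul_coeffD (hx : IsFF K x) (g : SemilinearAut K F) (hgx : g • x = x) {h : F}
    (hh : g • h = h) {s : F} (hs : IsParam K s) :
    g • coeffD s (h • D K F x) = coeffD (g • s) (h • D K F x) := by
  have hs' := isParam_smul hx g hgx hs
  have h1 := coeffD_D_mul hx hs
  have h2 := coeffD_D_mul hx hs'
  rw [coeffD_smul hs, coeffD_smul hs', smul_mul', hh]
  congr 1
  -- both sides are the inverse of `d(g • s) / dx`
  have h3 : g • coeffD s (D K F x) * coeffD x (D K F (g • s)) = 1 := by
    rw [← smul_coeffD_D hx g hgx, ← smul_mul', h1, smul_one]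
  have hne : coeffD x (D K F (g • s)) ≠ 0 := right_ne_zero_of_mul_eq_one h2
  exact mul_right_cancel₀ hne (h3.trans h2.symm)

/-- **Galois equivariance of the values of a rational differential**:
`(η / d(g • s))(g • v) = τ ((η / ds)(v))` -/
theorem ev_coeffD_smul (hx : IsFF K x) (g : SemilinearAut K F) (hgx : g • x = x) {h : F}
    (hh : g • h = h) (v : Place K F) {s : F} (hs : v.ord s = 1) :
    ev hx (g • v) (coeffD (g • s) (h • D K F x))
      = baseAut g (ev hx v (coeffD s (h • D K F x))) := by
  rw [← smul_coeffD hx g hgx hh (isParam_of_ord_eq_one hx v hs)]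
  exact ev_smul hx g v _

/-- the value `(η / ds)(v)` is nonzero at the places where the differential `η` has order `0` -/
theorem ev_coeffD_ne_zero (hx : IsFF K x) (v : Place K F) {s : F} (hs : v.ord s = 1)
    {η : Ω[F⁄K]} (hη : η ≠ 0) (h0 : v.ordDifferential η = 0) : ev hx v (coeffD s η) ≠ 0 := by
  have hp := isParam_of_ord_eq_one hx v hs
  have hc : coeffD s η ≠ 0 := fun h => hη ((coeffD_eq_zero_iff hp η).mp h)
  exact ev_ne_zero_of_ord_eq_zero hx v hc (by rw [ord_coeffD hx v hs hη, h0])

end Values

end Fermat.Agent.S17.Adj.Equivar
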