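import Mathlib
import Fermat.Agent.S17.Ht.GlobalAdj
import Fermat.Agent.S17.Local.Chordal

/-!
# PROJECT H (S17), seam S-8: B.12 of Part B, from the `(A*)` interface to the packet form

Abstract frame of `Ht/Recip.lean` (`xt`, `w`, `tau`) with `w P R = xt P ∧ xt R`.

* `lamD_eq_neg_log_chord` : `λ_v(P,R) = - log d_v(P,R)` (bridge to `Local/Chordal`);
* `exists_far` : for two finite sets `S₀, S₁` of points with `xt R ∧ xt R' ≠ 0` across them there
  is an almost-zero family `rho` such that every point `P` is, at every place, `rho`-far from ALL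
  points of `S₀` or from ALL points of `S₁`;
* `hloc_of_star` : from the LOWER half of `(A*)` for two linear forms `G₀, G₁` with zero divisors
  `E + E'_b`, the core inequality `|f P| ‖xt P‖² |G_b(P)| ≤ C ‖tau P‖` and the far-alternative:
  the local one-sided adjunction inequality (= hypothesis `hloc` of `Ht/GlobalAdj`);
* `kapE_le_kapTau_of_star` : **B.12, packet form** = hypothesis `h12` of `Ht.Qf_bGlob_ge`, with a
  constant `C6` independent of the packet `D`.
-/

set_option autoImplicit false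

noncomputable section

namespace Fermat.Agent.S17.Adj.PacketAbs

open Fermat.Agent.S17.Ht Fermat.Agent.S17.Local

/-! ### small lemmas on almost-zero families -/

theorem az_abs {f : Pl → ℝ} (hf : AZ f) : AZ (fun v => |f v|) :=
  hf.subset fun p hp h0 => hp (by
    have h0' : f (some p) = 0 := h0
    show |f (some p)| = 0
    rw [h0', abs_zero])

/-! ### the bridge to the chordal distance -/

section Bridge

variable {X : Type*} {ι : Type*} [Finite ι]
variable (xt : X → ι → Qbar) (w : X → X → ι × ι → Qbar)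

omit [Finite ι] in
theorem nrm_eq (v : Pl) (x : ι → Qbar) : Ht.nrm v x = Chordal.nrm (absAt v) x := rfl

/-- `λ_v(P,R) = - log d_v(P,R)` -/
theorem lamD_eq_neg_log_chord (hw : ∀ P R, w P R = Chordal.wedge (xt P) (xt R))
    (hxt : ∀ P, xt P ≠ 0) (v : Pl) {P R : X} (hPR : w P R ≠ 0) :
    lamD xt w v P R = - Real.log (Chordal.chord (absAt v) (xt P) (xt R)) := by
  have h1 : 0 < Chordal.nrm (absAt v) (xt P) := (Chordal.nrm_pos_iff _).mpr (hxt P)
  have h2 : 0 < Chordal.nrm (absAt v) (xt R) := (Chordal.nrm_pos_iff _).mpr (hxt R)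
  have h3 : 0 < Chordal.nrm (absAt v) (Chordal.wedge (xt P) (xt R)) := by
    rw [Chordal.nrm_pos_iff, ← hw P R]
    exact hPR
  unfold lamD lam Chordal.chord
  rw [nrm_eq, nrm_eq, nrm_eq, hw P R, Real.log_div h3.ne' (mul_pos h1 h2).ne',
    Real.log_mul h1.ne' h2.ne']
  ring

/-- positivity of the chordal distance -/
theorem chord_pos (hw : ∀ P R, w P R = Chordal.wedge (xt P) (xt R))
    (hxt : ∀ P, xt P ≠ 0) (v : Pl) {P R : X} (hPR : w P R ≠ 0) :
    0 < Chordal.chord (absAt v) (xt P) (xt R) := by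
  have h1 : 0 < Chordal.nrm (absAt v) (xt P) := (Chordal.nrm_pos_iff _).mpr (hxt P)
  have h2 : 0 < Chordal.nrm (absAt v) (xt R) := (Chordal.nrm_pos_iff _).mpr (hxt R)
  have h3 : 0 < Chordal.nrm (absAt v) (Chordal.wedge (xt P) (xt R)) := by
    rw [Chordal.nrm_pos_iff, ← hw P R]
    exact hPR
  exact div_pos h3 (mul_pos h1 h2)

/-- the separation family of two finite sets of points -/
def rhoSep (S0 S1 : Finset X) (v : Pl) : ℝ :=
  (∑ R ∈ S0, ∑ R' ∈ S1, |lamD xt w v R R'|) + (if v = none then Real.log 3 else 0)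

omit [Finite ι] in
theorem rhoSep_nonneg (S0 S1 : Finset X) (v : Pl) : 0 ≤ rhoSep xt w S0 S1 v := by
  unfold rhoSep
  refine add_nonneg (Finset.sum_nonneg fun R _ => Finset.sum_nonneg fun R' _ => abs_nonneg _) ?_
  split_ifs
  · exact Real.log_nonneg (by norm_num)
  · exact le_rfl

theorem az_rhoSep (hxt : ∀ P, xt P ≠ 0) (S0 S1 : Finset X)
    (hS : ∀ R ∈ S0, ∀ R' ∈ S1, w R R' ≠ 0) : AZ (rhoSep xt w S0 S1) := by
  unfold rhoSep
  refine AZ.add (AZ.sum _ fun R hR => AZ.sum _ fun R' hR' => ?_) (az_const_none _)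
  exact az_abs (az_lamD xt w hxt (hS R hR R' hR'))

/-- **the far alternative**: every point is, at every place, far from all points of `S₀` or from
all points of `S₁` -/
theorem exists_far (hw : ∀ P R, w P R = Chordal.wedge (xt P) (xt R)) (hxt : ∀ P, xt P ≠ 0)
    (S0 S1 : Finset X) (hS : ∀ R ∈ S0, ∀ R' ∈ S1, w R R' ≠ 0) (v : Pl) (P : X) :
    (∀ T ∈ S0, w P T ≠ 0 ∧ lamD xt w v P T ≤ rhoSep xt w S0 S1 v) ∨
      (∀ T ∈ S1, w P T ≠ 0 ∧ lamD xt w v P T ≤ rhoSep xt w S0 S1 v) := by
  classical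
  set σ : ℝ := ∑ R ∈ S0, ∑ R' ∈ S1, |lamD xt w v R R'| with hσ
  have hσ0 : 0 ≤ σ := Finset.sum_nonneg fun R _ => Finset.sum_nonneg fun R' _ => abs_nonneg _
  set ρ : ℝ := Real.exp (-σ) with hρ
  have hρpos : 0 < ρ := Real.exp_pos _
  -- separation of the two families
  have hsep : ∀ (a : S0) (b : S1), ρ ≤ Chordal.chord (absAt v) (xt a.1) (xt b.1) := by
    intro a b
    have hne := hS a.1 a.2 b.1 b.2
    have hpos := chord_pos xt w hw hxt v hne
    have h1 := lamD_eq_neg_log_chord xt w hw hxt v hne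
    have h2 : |lamD xt w v a.1 b.1| ≤ σ := by
      have h3 : |lamD xt w v a.1 b.1| ≤ ∑ R' ∈ S1, |lamD xt w v a.1 R'| :=
        Finset.single_le_sum (f := fun R' => |lamD xt w v a.1 R'|) (fun _ _ => abs_nonneg _) b.2
      have h4 : ∑ R' ∈ S1, |lamD xt w v a.1 R'| ≤ σ :=
        Finset.single_le_sum (f := fun R => ∑ R' ∈ S1, |lamD xt w v R R'|)
          (fun _ _ => Finset.sum_nonneg fun _ _ => abs_nonneg _) a.2
      exact h3.trans h4
    have h5 : -σ ≤ Real.log (Chordal.chord (absAt v) (xt a.1) (xt b.1)) := by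
      have := (abs_le.mp h2).2
      linarith
    calc ρ = Real.exp (-σ) := rfl
      _ ≤ Real.exp (Real.log (Chordal.chord (absAt v) (xt a.1) (xt b.1))) := Real.exp_le_exp.mpr h5
      _ = _ := Real.exp_log hpos
  -- conversion of a lower bound for the chordal distance
  have hconv : ∀ (c : ℝ) (T : X), 0 < c → c ≤ Chordal.chord (absAt v) (xt P) (xt T) →
      w P T ≠ 0 ∧ lamD xt w v P T ≤ - Real.log c := by
    intro c T hc hle
    have hne : w P T ≠ 0 := by
      intro h0
      have : Chordal.chord (absAt v) (xt P) (xt T) = 0 := by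
        unfold Chordal.chord
        rw [← hw P T, h0, (Chordal.nrm_eq_zero_iff _).mpr rfl, zero_div]
      rw [this] at hle
      exact absurd hle (not_le.mpr hc)
    refine ⟨hne, ?_⟩
    rw [lamD_eq_neg_log_chord xt w hw hxt v hne]
    exact neg_le_neg (Real.log_le_log hc hle)
  rcases v with _ | p
  · -- the archimedean place
    have hr : rhoSep xt w S0 S1 none = σ + Real.log 3 := by
      unfold rhoSep
      rw [if_pos rfl]
    have hlog : - Real.log (ρ / 3) = σ + Real.log 3 := by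
      rw [Real.log_div hρpos.ne' (by norm_num), hρ, Real.log_exp]
      ring
    rcases Chordal.exists_far_family (absAt none) (fun a : S0 => xt a.1) (fun b : S1 => xt b.1)
      hsep (hxt P) with h | h
    · left
      intro T hT
      have := hconv (ρ / 3) T (by positivity) (h ⟨T, hT⟩)
      rw [hr, ← hlog]
      exact this
    · right
      intro T hT
      have := hconv (ρ / 3) T (by positivity) (h ⟨T, hT⟩)
      rw [hr, ← hlog]
      exact this
  · -- a finite place
    have hr : rhoSep xt w S0 S1 (some p) = σ := by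
      unfold rhoSep
      rw [if_neg (by simp), add_zero]
    have hlog : - Real.log ρ = σ := by
      rw [hρ, Real.log_exp, neg_neg]
    rcases Chordal.exists_far_family_of_nonarch (absAt (some p)) (isNonarchimedean_absAt_some p)
      (fun a : S0 => xt a.1) (fun b : S1 => xt b.1) hsep (hxt P) with h | h
    · left
      intro T hT
      have := hconv ρ T hρpos (h ⟨T, hT⟩)
      rw [hr, ← hlog]
      exact this
    · right
      intro T hT
      have := hconv ρ T hρpos (h ⟨T, hT⟩)
      rw [hr, ← hlog]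
      exact this

end Bridge

/-! ### from `(A*)` to the local one-sided adjunction inequality -/

section Local

variable {X : Type*} [DecidableEq X] {ι κ α : Type*} [Finite ι] [Finite κ] [Finite α]
variable (xt : X → ι → Qbar) (w : X → X → κ → Qbar) (tau : X → κ → Qbar) (e : ℕ)

/-- the degree of a zero divisor, as a real number -/
def degN (Z : X →₀ ℕ) : ℝ := ∑ T ∈ Z.support, (Z T : ℝ)

omit [DecidableEq X] in
theorem degN_nonneg (Z : X →₀ ℕ) : 0 ≤ degN Z :=
  Finset.sum_nonneg fun _ _ => Nat.cast_nonneg _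

/-- the local constant of B.12 -/
def gamAdj (a : Fin 2 → α → Qbar) (ZE' : Fin 2 → X →₀ ℕ) (gam c1 rho : Pl → ℝ) (v : Pl) : ℝ :=
  c1 v + gam v + ∑ b, (|lam v (a b)| + degN (ZE' b) * |rho v|)

omit [DecidableEq X] in
theorem az_gamAdj {a : Fin 2 → α → Qbar} (ha : ∀ b, a b ≠ 0) (ZE' : Fin 2 → X →₀ ℕ)
    {gam c1 rho : Pl → ℝ} (hgam : AZ gam) (hc1 : AZ c1) (hrho : AZ rho) :
    AZ (gamAdj a ZE' gam c1 rho) := by
  unfold gamAdj
  refine (hc1.add hgam).add (AZ.sum _ fun b _ => ?_)
  exact (az_abs (az_lam (ha b))).add ((az_abs hrho).const_mul _)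

omit [DecidableEq X] [Finite ι] [Finite κ] in
/-- splitting a weighted sum over the support of a sum of two zero divisors -/
theorem sum_support_add (Z1 Z2 : X →₀ ℕ) (F : X → ℝ) :
    ∑ R ∈ (Z1 + Z2).support, ((Z1 + Z2) R : ℝ) * F R =
      (∑ R ∈ Z1.support, (Z1 R : ℝ) * F R) + ∑ R ∈ Z2.support, (Z2 R : ℝ) * F R := by
  have h := Finsupp.sum_add_index' (f := Z1) (g := Z2) (h := fun R n => ((n : ℕ) : ℝ) * F R)
    (fun R => by simp) (fun R n m => by push_cast; ring)
  exact h

omit [Finite ι] [Finite κ] [Finite α] in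
/-- **B.12, local form in the language of `Ht/Recip`**: the lower half of `(A*)` for two forms
with zero divisors `ZE + ZE' b`, the core inequality and the far-alternative give the local
one-sided adjunction inequality at the point `P` and the place `v`. -/
theorem hloc_of_star (a : Fin 2 → α → Qbar) (Z : Fin 2 → X →₀ ℕ) (lc : Fin 2 → X → Qbar)
    (ZE : X →₀ ℕ) (ZE' : Fin 2 → X →₀ ℕ) (hZ : ∀ b, Z b = ZE + ZE' b)
    (gam c1 rho : Pl → ℝ)
    (hA : ∀ b v P, - gam v ≤ starDefect xt w tau e (a b) (Z b) (lc b) v P)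
    (f : X → Qbar) (v : Pl) (P : X)
    (hcore : ∀ b, Z b P = 0 →
      logAbs v (f P) + 2 * lam v (xt P) + logAbs v (lc b P) ≤ c1 v + lam v (tau P))
    (hfar : ∃ b, Z b P = 0 ∧ ∀ T ∈ (ZE' b).support, lamD xt w v P T ≤ rho v) :
    logAbs v (f P) + ((e : ℝ) + 2) * lam v (xt P)
        - ∑ T ∈ (zInt ZE).support, ((zInt ZE T : ℤ) : ℝ) * lamD xt w v P T
      ≤ gamAdj a ZE' gam c1 rho v + lam v (tau P) := by
  obtain ⟨b, hb0, hbfar⟩ := hfar
  have hPns : P ∉ (Z b).support := Finsupp.notMem_support_iff.mpr hb0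
  have h1 := hA b v P
  unfold starDefect at h1
  rw [hb0, Finset.erase_eq_of_notMem hPns, hZ b, sum_support_add] at h1
  have h2 := hcore b hb0
  -- the residual part is controlled by the far-alternative
  have h3 : ∑ T ∈ (ZE' b).support, (ZE' b T : ℝ) * lamD xt w v P T ≤ degN (ZE' b) * |rho v| := by
    unfold degN
    rw [Finset.sum_mul]
    refine Finset.sum_le_sum fun T hT => ?_
    exact mul_le_mul_of_nonneg_left ((hbfar T hT).trans (le_abs_self _)) (Nat.cast_nonneg _)
  have h4 : - lam v (a b) ≤ |lam v (a b)| := neg_le_abs _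
  have h5 : |lam v (a b)| + degN (ZE' b) * |rho v|
      ≤ ∑ b', (|lam v (a b')| + degN (ZE' b') * |rho v|) :=
    Finset.single_le_sum (f := fun b' => |lam v (a b')| + degN (ZE' b') * |rho v|)
      (fun b' _ => add_nonneg (abs_nonneg _) (mul_nonneg (degN_nonneg _) (abs_nonneg _)))
      (Finset.mem_univ b)
  have h6 : ∑ T ∈ (zInt ZE).support, ((zInt ZE T : ℤ) : ℝ) * lamD xt w v P T
      = ∑ T ∈ ZE.support, (ZE T : ℝ) * lamD xt w v P T := by
    rw [support_zInt]
    refine Finset.sum_congr rfl fun T _ => ?_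
    rw [zInt_apply, Int.cast_natCast]
  rw [h6]
  unfold gamAdj
  push_cast at h1
  linarith

end Local

/-! ### the packet form -/

section Packet

variable {X : Type*} [DecidableEq X] [MulAction GQ X] {ι α : Type*} [Finite ι] [Finite α]
variable (xt : X → ι → Qbar) (w : X → X → ι × ι → Qbar) (tau : X → ι × ι → Qbar) (e : ℕ)

/-- **B.12, packet form** (= hypothesis `h12` of `Ht.Qf_bGlob_ge`, with `E := zInt ZE`,
`C6` independent of the packet).  `U` is the set of admissible points (affine, off `supp E`,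
where `f P = (η_E / ds_P)(P)` is defined and nonzero). -/
theorem kapE_le_kapTau_of_star (hdata : GoodData xt w tau)
    (hw : ∀ P R, w P R = Chordal.wedge (xt P) (xt R))
    (a : Fin 2 → α → Qbar) (ha : ∀ b, a b ≠ 0) (Z : Fin 2 → X →₀ ℕ) (lc : Fin 2 → X → Qbar)
    (ZE : X →₀ ℕ) (ZE' : Fin 2 → X →₀ ℕ) (hZ : ∀ b, Z b = ZE + ZE' b)
    (hsep : Disjoint (ZE' 0).support (ZE' 1).support)
    {gam : Pl → ℝ} (hgam : AZ gam)
    (hA : ∀ b v P, - gam v ≤ starDefect xt w tau e (a b) (Z b) (lc b) v P)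
    {f : X → Qbar} (hf : Equivar f) (U : Set X) (hU : ∀ P ∈ U, ZE P = 0)
    (h0 : ∀ P ∈ U, f P ≠ 0)
    {c1 : Pl → ℝ} (hc1 : AZ c1)
    (hcore : ∀ b v, ∀ P ∈ U, ZE' b P = 0 →
      logAbs v (f P) + 2 * lam v (xt P) + logAbs v (lc b P) ≤ c1 v + lam v (tau P)) :
    ∃ C6 : ℝ, ∀ D : X →₀ ℤ, Stable D → (∀ P, 0 ≤ D P) → (∀ P ∈ D.support, P ∈ U) →
      (e : ℝ) * hgt xt D - hDelta xt w D (zInt ZE) ≤ kapTau xt tau D + C6 * degR D := by
  classical
  obtain ⟨hxt, hwne, htau⟩ := hdata
  have hS : ∀ R ∈ (ZE' 0).support, ∀ R' ∈ (ZE' 1).support, w R R' ≠ 0 := by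
    intro R hR R' hR'
    exact hwne R R' fun h => (Finset.disjoint_left.mp hsep hR) (h ▸ hR')
  set rho : Pl → ℝ := rhoSep xt w (ZE' 0).support (ZE' 1).support with hrho
  have hrhoaz : AZ rho := az_rhoSep xt w hxt _ _ hS
  refine ⟨tot (gamAdj a ZE' gam c1 rho), fun D hD hD0 hDU => ?_⟩
  have hDE : Disjoint D.support (zInt ZE).support := by
    rw [support_zInt, Finset.disjoint_left]
    intro P hP hPE
    exact (Finsupp.mem_support_iff.mp hPE) (hU P (hDU P hP))
  refine kapE_le_kapTau_of_local xt w tau ⟨hxt, hwne, htau⟩ hD hD0 hDE hf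
    (fun P hP => h0 P (hDU P hP)) e (az_gamAdj ha ZE' hgam hc1 hrhoaz) fun v P hP => ?_
  have hPU := hDU P hP
  -- `w P P = 0`
  have hwPP : w P P = 0 := by
    rw [hw P P]
    exact Chordal.wedge_self _
  -- the far alternative selects the form
  have hfar : ∃ b, Z b P = 0 ∧ ∀ T ∈ (ZE' b).support, lamD xt w v P T ≤ rho v := by
    rcases exists_far xt w hw hxt (ZE' 0).support (ZE' 1).support hS v P with h | h
    · refine ⟨0, ?_, fun T hT => (h T hT).2⟩
      have h1 : ZE' 0 P = 0 := by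
        by_contra hne
        exact (h P (Finsupp.mem_support_iff.mpr hne)).1 hwPP
      rw [hZ 0, Finsupp.add_apply, hU P hPU, h1]
    · refine ⟨1, ?_, fun T hT => (h T hT).2⟩
      have h1 : ZE' 1 P = 0 := by
        by_contra hne
        exact (h P (Finsupp.mem_support_iff.mpr hne)).1 hwPP
      rw [hZ 1, Finsupp.add_apply, hU P hPU, h1]
  have hcoreP : ∀ b, Z b P = 0 →
      logAbs v (f P) + 2 * lam v (xt P) + logAbs v (lc b P) ≤ c1 v + lam v (tau P) := by
    intro b hb
    refine hcore b v P hPU ?_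
    rw [hZ b, Finsupp.add_apply] at hb
    omega
  exact hloc_of_star xt w tau e a Z lc ZE ZE' hZ gam c1 rho hA f v P hcoreP hfar

end Packet

end Fermat.Agent.S17.Adj.PacketAbs
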