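import Mathlib
import Fermat.Agent.S17.Model.Global
import Fermat.Agent.S17.Adj.PacketAbs
import Fermat.Agent.S17.Adj.CoreQbar
import Fermat.Agent.S17.Adj.Equivar
import Fermat.Agent.S37.Equivariance.PlaceEquiv

/-!
# PROJECT H (S17), Part B, B.12 for `X₀(N)`: the one-sided adjunction inequality, packet form

Frame of `Model/Global` (`Φ : RatFrame N δ`, an equivariant choice `ix`, `sp`).  Data of B.8:
a rational differential `η_E = hE • dj` with `div η_E = δ∞ - E`, two rational linear forms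
`a 0`, `a 1` with `Z(a b) = E + E'_b` and `supp E'_0 ∩ supp E'_1 = ∅`.  From the LOWER half of
`(A*)` for these two forms:

`h(D) - h_Δ(D,E) ≤ κ_τ(D) + C6 deg D` for every effective stable `D` supported on the affine
points off `supp E` (`= h12` of `Ht.Qf_bGlob_ge`, `e = 1`), with `C6` independent of `D`.
-/

set_option autoImplicit false
set_option linter.unusedSectionVars false
set_option linter.style.haveILetI false
set_option synthInstance.maxHeartbeats 400000
set_option maxHeartbeats 1600000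

noncomputable section

namespace Fermat.Agent.S17.Adj.AdjX0

open AlgebraicCurve AlgebraicCurve.SemilinearAut ModularCurve KaehlerDifferential
open Fermat.Agent.S17.Model.Lift Fermat.Agent.S17.Model.Embed
open Fermat.Agent.S17.B.Frame Fermat.Agent.S17.Ht Fermat.Agent.S17.Model.Global
open Fermat.Agent.S17.Adj.Wronskian Fermat.Agent.S17.Adj.PacketAbs
open Fermat.Agent.S24.DegreeAlg (jgen)

open scoped Classical

local notation "Kb" => AlgebraicClosure ℚ

variable {N : ℕ} [NeZero N] {δ : ℕ} (Φ : RatFrame N δ)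
variable (ix : X N → Fin (Φ.n + 1)) (sp : X N → modularFunctionFieldBar N)

/-- the differential `hE • dj` -/
def etaOf (hE : modularFunctionFieldBar N) : Ω[modularFunctionFieldBar N⁄Kb] :=
  hE • D Kb (modularFunctionFieldBar N) (jgen N)

/-- the value `(η_E / ds_P)(P)` -/
def etaval (hE : modularFunctionFieldBar N) (P : X N) : Qbar :=
  ev (hxN N) P (coeffD (sp P) (etaOf hE))

/-- the admissible points: affine (`ix P = 0`) and off `supp E` -/
def goodPts (ZE : X N →₀ ℕ) : Set (X N) := {P | (ix P : ℕ) = 0 ∧ ZE P = 0 ∧ dOO N δ P = 0}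

variable {Φ ix sp}

/-- Galois equivariance of `P ↦ (η_E / ds_P)(P)` -/
theorem equivar_etaval (hsp : ∀ (σ : GQ) (P : X N), sp (gal N σ • P) = gal N σ • sp P)
    (hch : IsEquivChoice Φ ix sp) {hE : modularFunctionFieldBar N}
    (hhE : ∀ σ : GQ, gal N σ • hE = hE) :
    (letI := actX N; Equivar (etaval sp hE)) := by
  letI := actX N
  intro σ P
  show etaval sp hE (gal N σ • P) = σ (etaval sp hE P)
  unfold etaval etaOf
  rw [hsp σ P]
  exact Fermat.Agent.S17.Adj.Equivar.ev_coeffD_smul (hxN N) (gal N σ)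
    (Fermat.Agent.S37.Equivariance.PlaceEquiv.smul_jgen N σ) (hhE σ) P (hch.ord_sp P)

/-- **B.12 for `X₀(N)`, packet form** -/
theorem kapE_le_kapTau_X0 (hch : IsEquivChoice Φ ix sp)
    (hsp : ∀ (σ : GQ) (P : X N), sp (gal N σ • P) = gal N σ • sp P)
    {hE : modularFunctionFieldBar N} (hE0 : hE ≠ 0) (hhE : ∀ σ : GQ, gal N σ • hE = hE)
    (a : Fin 2 → Fin (Φ.n + 1) → Qbar) (ha : ∀ b, a b ≠ 0)
    (ZE : X N →₀ ℕ) (ZE' : Fin 2 → X N →₀ ℕ) (hZ : ∀ b, Zdiv Φ (a b) = ZE + ZE' b)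
    (hsep : Disjoint (ZE' 0).support (ZE' 1).support)
    (hdiv : ∀ P : X N, P.ordDifferential (etaOf (N := N) hE) = dOO N δ P - (ZE P : ℤ))
    {gam : Pl → ℝ} (hgam : AZ gam)
    (hA : ∀ b v P, - gam v ≤ starDefect (xt Φ ix) (w Φ ix) (tau Φ ix sp) 1 (a b) (Zdiv Φ (a b))
      (lcG Φ ix sp (a b)) v P) :
    ∃ C6 : ℝ, ∀ D : X N →₀ ℤ, (letI := actX N; Stable D) → (∀ P, 0 ≤ D P) →
      (∀ P ∈ D.support, P ∈ goodPts Φ ix ZE) →
      ((1 : ℕ) : ℝ) * hgt (xt Φ ix) D - hDelta (xt Φ ix) (w Φ ix) D (zInt ZE)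
        ≤ kapTau (xt Φ ix) (tau Φ ix sp) D + C6 * degR D := by
  letI := actX N
  have hx := hxN N
  have hf := Φ.model.ne_zero
  have hη0 : etaOf (N := N) hE ≠ 0 := by
    unfold etaOf
    exact smul_ne_zero hE0 (Fermat.Agent.S24.Hurwitz.D_ne_zero hx)
  have hE2 : ∀ (P : X N) (i : Fin (Φ.n + 1)) (s : modularFunctionFieldBar N),
      Admissible Φ.f P i → P.ord s = 1 → tauvec hx P Φ.f i s ≠ 0 :=
    fun P i s hi hs => Fermat.Agent.S17.Model.Embed.tauvec_ne_zero hx Φ.model P hi hs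
  -- `G_b η` is holomorphic
  have hGη : ∀ (b : Fin 2) (P : X N),
      0 ≤ P.ord (formOf Φ.f (a b)) + P.ordDifferential (etaOf (N := N) hE) := by
    intro b P
    have h1 := Zdiv_apply_eq_ord Φ (ha b) P
    rw [hZ b, Finsupp.add_apply] at h1
    rw [hdiv P]
    push_cast at h1
    have : (0 : ℤ) ≤ (ZE' b P : ℤ) := Int.natCast_nonneg _
    omega
  -- the core inequalities of the two forms
  obtain ⟨c10, hc10, hcore0⟩ := Fermat.Agent.S17.Adj.CoreQbar.core_absAt hx hf Φ.f_zero hE2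
    (etaOf hE) (a 0) (hGη 0)
  obtain ⟨c11, hc11, hcore1⟩ := Fermat.Agent.S17.Adj.CoreQbar.core_absAt hx hf Φ.f_zero hE2
    (etaOf hE) (a 1) (hGη 1)
  set c1 : Pl → ℝ := fun v => |c10 v| + |c11 v| with hc1def
  have hc1 : AZ c1 := (az_abs hc10).add (az_abs hc11)
  -- facts at the good points
  have hgood : ∀ P ∈ goodPts Φ ix ZE, ix P = 0 ∧ Admissible Φ.f P 0 ∧
      P.ordDifferential (etaOf (N := N) hE) = 0 := by
    intro P hP
    obtain ⟨h1, h2, h3⟩ := hP
    have hix : ix P = 0 := Fin.ext h1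
    refine ⟨hix, ?_, ?_⟩
    · have := hch.adm P
      rwa [hix] at this
    · rw [hdiv P, h2, h3]
      simp
  have hcore : ∀ (b : Fin 2) (v : Pl), ∀ P ∈ goodPts Φ ix ZE, ZE' b P = 0 →
      logAbs v (etaval sp hE P) + 2 * lam v (xt Φ ix P) + logAbs v (lcG Φ ix sp (a b) P)
        ≤ c1 v + lam v (tau Φ ix sp P) := by
    intro b v P hP hb
    obtain ⟨hix, hadm, hord⟩ := hgood P hP
    have hmult : multAt Φ.f (a b) P = 0 := by
      rw [← Zdiv_apply_cast Φ (ha b), hZ b, Finsupp.add_apply, hP.2.1, hb]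
      rfl
    have hlc : lcG Φ ix sp (a b) P = ∑ l, a b l * zvec hx P Φ.f 0 l := by
      unfold lcG
      rw [hix]
      exact lcAt_of_multAt_eq_zero hx P hf (a b) hadm (sp P) hmult
    have hlc0 : (∑ l, a b l * zvec hx P Φ.f 0 l) ≠ 0 := by
      rw [← hlc]
      exact lcG_ne_zero hch (ha b) P
    have hηv : ev hx P (coeffD (sp P) (etaOf (N := N) hE)) ≠ 0 :=
      Fermat.Agent.S17.Adj.Equivar.ev_coeffD_ne_zero hx P (hch.ord_sp P) hη0 hord
    have hxt : xt Φ ix P = zvec hx P Φ.f 0 := by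
      unfold xt
      rw [hix]
    have htau : tau Φ ix sp P = tauvec hx P Φ.f 0 (sp P) := by
      unfold tau
      rw [hix]
    rw [hlc, hxt, htau]
    unfold etaval
    have hle0 : c10 v ≤ c1 v := by
      have h1 := le_abs_self (c10 v)
      have h2 := abs_nonneg (c11 v)
      show c10 v ≤ |c10 v| + |c11 v|
      linarith
    have hle1 : c11 v ≤ c1 v := by
      have h1 := le_abs_self (c11 v)
      have h2 := abs_nonneg (c10 v)
      show c11 v ≤ |c10 v| + |c11 v|
      linarith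
    have hb2 : b = 0 ∨ b = 1 := by
      fin_cases b <;> simp
    rcases hb2 with rfl | rfl
    · have := hcore0 v P (sp P) hadm (hch.ord_sp P) hord.ge hlc0 hηv
      linarith
    · have := hcore1 v P (sp P) hadm (hch.ord_sp P) hord.ge hlc0 hηv
      linarith
  have h0 : ∀ P ∈ goodPts Φ ix ZE, etaval sp hE P ≠ 0 := by
    intro P hP
    obtain ⟨-, -, hord⟩ := hgood P hP
    exact Fermat.Agent.S17.Adj.Equivar.ev_coeffD_ne_zero hx P (hch.ord_sp P) hη0 hord
  exact kapE_le_kapTau_of_star (xt Φ ix) (w Φ ix) (tau Φ ix sp) 1 (goodData hch)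
    (fun P R => rfl) a ha (fun b => Zdiv Φ (a b)) (fun b => lcG Φ ix sp (a b)) ZE ZE' hZ hsep
    hgam hA (equivar_etaval hsp hch hhE) (goodPts Φ ix ZE) (fun P hP => hP.2.1) h0 hc1 hcore

end Fermat.Agent.S17.Adj.AdjX0
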